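/-
S26 / Rig / PK / Defs : ideal triples on `C × Spec R`, graph ideals of points, sections vanishing
along an ideal triple.   (block RIG-PK, sub-lead helper83)
-/
import Fermat.Agent.S26.Curve.Pic
import Fermat.Agent.S26.Curve.Fam

set_option autoImplicit false

open scoped TensorProduct

universe u

namespace Fermat.Agent.S26

variable {K : Type u} [Field K]

namespace PK

/-- restriction of a ring hom to ideals, as a semilinear map -/
def idealRes {S T : Type u} [CommRing S] [CommRing T] (J : S →+* T) (I : Ideal S) (I' : Ideal T)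
    (h : I.map J ≤ I') : I →ₛₗ[J] I' where
  toFun a := ⟨J a, h (Ideal.mem_map_of_mem J a.2)⟩
  map_add' a b := Subtype.ext (map_add J (a : S) (b : S))
  map_smul' s a := Subtype.ext (map_mul J s (a : S))

@[simp] theorem idealRes_coe {S T : Type u} [CommRing S] [CommRing T] (J : S →+* T) (I : Ideal S)
    (I' : Ideal T) (h : I.map J ≤ I') (a : I) : (idealRes J I I' h a : T) = J a := rfl

theorem span_idealRes {S T : Type u} [CommRing S] [CommRing T] (J : S →+* T) (I : Ideal S)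
    (I' : Ideal T) (h : I.map J = I') :
    Submodule.span T (Set.range (idealRes J I I' h.le)) = ⊤ := by
  rw [eq_top_iff]
  rintro ⟨a, ha⟩ _
  have key : ∀ a (ha : a ∈ I.map J), (⟨a, h.le ha⟩ : I') ∈
      Submodule.span T (Set.range (idealRes J I I' h.le)) := by
    intro a ha
    induction ha using Submodule.span_induction with
    | mem x hx =>
      obtain ⟨y, hy, rfl⟩ := hx
      exact Submodule.subset_span ⟨⟨y, hy⟩, rfl⟩
    | zero => exact zero_mem _
    | add x y hx hy h1 h2 => exact add_mem h1 h2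
    | smul c x hx h1 => exact Submodule.smul_mem _ c h1
  exact key a (h ▸ ha)

/-- evaluation `R ⊗ B → R` at an `R`-valued point `w` of `Spec B` -/
noncomputable abbrev ev {B R : Type u} [CommRing B] [Algebra K B] [CommRing R] [Algebra K R]
    (w : B →ₐ[K] R) : R ⊗[K] B →ₐ[K] R := Algebra.TensorProduct.productMap (AlgHom.id K R) w

/-- the ideal of the graph of `w : Spec R → Spec B` in `Spec R × Spec B` -/
noncomputable def gI {B R : Type u} [CommRing B] [Algebra K B] [CommRing R] [Algebra K R]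
    (w : B →ₐ[K] R) : Ideal (R ⊗[K] B) := RingHom.ker (ev w)

theorem mem_gI {B R : Type u} [CommRing B] [Algebra K B] [CommRing R] [Algebra K R]
    (w : B →ₐ[K] R) (t : R ⊗[K] B) : t ∈ gI w ↔ ev w t = 0 := Iff.rfl

/-- the standard generators `1 ⊗ b - w b ⊗ 1` of the graph ideal -/
noncomputable def gδ {B R : Type u} [CommRing B] [Algebra K B] [CommRing R] [Algebra K R]
    (w : B →ₐ[K] R) (b : B) : R ⊗[K] B := (1 : R) ⊗ₜ[K] b - w b ⊗ₜ[K] (1 : B)

theorem gδ_mem {B R : Type u} [CommRing B] [Algebra K B] [CommRing R] [Algebra K R]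
    (w : B →ₐ[K] R) (b : B) : gδ w b ∈ gI w := by
  rw [mem_gI, gδ, map_sub]
  simp

end PK

/-- a triple of invertible ideals on the three charts of `C × Spec R`, compatible on the overlap -/
structure CIdl (C : Curve K) (R : Type u) [CommRing R] [Algebra K R] where
  I0 : Ideal (C.S0 R)
  I1 : Ideal (C.S1 R)
  I01 : Ideal (C.S01 R)
  inv0 : Module.Invertible (C.S0 R) I0
  inv1 : Module.Invertible (C.S1 R) I1
  inv01 : Module.Invertible (C.S01 R) I01
  map0 : I0.map (C.J0 R).toRingHom = I01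
  map1 : I1.map (C.J1 R).toRingHom = I01

namespace CIdl

variable {C : Curve K} {R : Type u} [CommRing R] [Algebra K R]

theorem ext' {𝓘 𝓘' : CIdl C R} (h0 : 𝓘.I0 = 𝓘'.I0) (h1 : 𝓘.I1 = 𝓘'.I1) : 𝓘 = 𝓘' := by
  have h01 : 𝓘.I01 = 𝓘'.I01 := by rw [← 𝓘.map0, ← 𝓘'.map0, h0]
  cases 𝓘; cases 𝓘'
  simp only at h0 h1 h01
  subst h0 h1 h01
  rfl

/-- the line bundle defined by an ideal triple -/
def toCMod (𝓘 : CIdl C R) : CMod C R where
  N0 := 𝓘.I0
  N1 := 𝓘.I1
  N01 := 𝓘.I01
  inv0 := 𝓘.inv0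
  inv1 := 𝓘.inv1
  inv01 := 𝓘.inv01
  r0 := PK.idealRes _ _ _ 𝓘.map0.le
  r1 := PK.idealRes _ _ _ 𝓘.map1.le
  span0 := PK.span_idealRes _ _ _ 𝓘.map0
  span1 := PK.span_idealRes _ _ _ 𝓘.map1

/-- the inclusion into the trivial bundle -/
noncomputable def incl (𝓘 : CIdl C R) : CMod.LHom 𝓘.toCMod (CMod.one C R) where
  f0 := 𝓘.I0.subtype
  f1 := 𝓘.I1.subtype
  f01 := 𝓘.I01.subtype
  comm0 := fun _ => rfl
  comm1 := fun _ => rfl

end CIdl

namespace CMod

variable {C : Curve K} {R : Type u} [CommRing R] [Algebra K R]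

/-- the global sections of `N` which lie in `I0 N0` and `I1 N1` -/
def secI (N : CMod C R) (I0 : Ideal (C.S0 R)) (I1 : Ideal (C.S1 R)) :
    Submodule R N.toP1Mod.H0 where
  carrier := {s | (show N.N0 from s.1.1) ∈ I0 • (⊤ : Submodule (C.S0 R) N.N0) ∧
    (show N.N1 from s.1.2) ∈ I1 • (⊤ : Submodule (C.S1 R) N.N1)}
  add_mem' := fun ha hb => ⟨add_mem ha.1 hb.1, add_mem ha.2 hb.2⟩
  zero_mem' := ⟨zero_mem _, zero_mem _⟩
  smul_mem' := fun c _ hs =>
    ⟨Submodule.smul_mem _ (algebraMap R (C.S0 R) c) hs.1,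
      Submodule.smul_mem _ (algebraMap R (C.S1 R) c) hs.2⟩

theorem mem_secI (N : CMod C R) (I0 : Ideal (C.S0 R)) (I1 : Ideal (C.S1 R)) (s : N.toP1Mod.H0) :
    s ∈ N.secI I0 I1 ↔ (show N.N0 from s.1.1) ∈ I0 • (⊤ : Submodule (C.S0 R) N.N0) ∧
      (show N.N1 from s.1.2) ∈ I1 • (⊤ : Submodule (C.S1 R) N.N1) := Iff.rfl

end CMod

end Fermat.Agent.S26
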