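/-
S26 / Rig / PK / Graph : the graph ideal `gI w = ker (R ⊗ B → R)` of an `R`-valued point `w` of a Dedekind
`K`-algebra `B`: calculus of the generators.   (package PK-2a)
-/
import Fermat.Agent.S26.Rig.PK.Defs

set_option autoImplicit false

open scoped TensorProduct

universe u

namespace Fermat.Agent.S26.PK

variable {K : Type u} [Field K] {B R : Type u} [CommRing B] [Algebra K B] [CommRing R] [Algebra K R]

/-! ### PK-2a : calculus of the generators -/

theorem gδ_add (w : B →ₐ[K] R) (b b' : B) : gδ w (b + b') = gδ w b + gδ w b' := by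
  unfold gδ
  rw [map_add, TensorProduct.tmul_add, TensorProduct.add_tmul]
  abel

theorem gδ_algebraMap (w : B →ₐ[K] R) (c : K) : gδ w (algebraMap K B c) = 0 := by
  unfold gδ
  rw [w.commutes, Algebra.algebraMap_eq_smul_one, Algebra.algebraMap_eq_smul_one,
    TensorProduct.tmul_smul, TensorProduct.smul_tmul', sub_self]

theorem gδ_mul (w : B →ₐ[K] R) (b b' : B) :
    gδ w (b * b') = ((1 : R) ⊗ₜ[K] b) * gδ w b' + (w b' ⊗ₜ[K] (1 : B)) * gδ w b := by
  unfold gδ
  rw [mul_sub, mul_sub, Algebra.TensorProduct.tmul_mul_tmul, Algebra.TensorProduct.tmul_mul_tmul,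
    Algebra.TensorProduct.tmul_mul_tmul, Algebra.TensorProduct.tmul_mul_tmul, map_mul]
  simp only [one_mul, mul_one]
  rw [mul_comm (w b') (w b)]
  abel

/-- PROOF.  `⊇` : `gδ_mem`.  `⊆` : for every `t : R ⊗ B`, `t - (ev w t) ⊗ₜ 1 ∈ span (range (gδ w))`
(`TensorProduct.induction_on`: `r ⊗ b - (r * w b) ⊗ 1 = (r ⊗ 1) * gδ w b`). -/
theorem gI_eq_span (w : B →ₐ[K] R) : gI w = Ideal.span (Set.range (gδ w)) := by
  apply le_antisymm
  · have key : ∀ t : R ⊗[K] B, t - (ev w t) ⊗ₜ[K] (1 : B) ∈ Ideal.span (Set.range (gδ w)) := by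
      intro t
      induction t using TensorProduct.induction_on with
      | zero => rw [map_zero, TensorProduct.zero_tmul, sub_zero]; exact zero_mem _
      | tmul r b =>
        have e : r ⊗ₜ[K] b - (ev w (r ⊗ₜ[K] b)) ⊗ₜ[K] (1 : B) = (r ⊗ₜ[K] (1 : B)) * gδ w b := by
          unfold gδ
          rw [mul_sub, Algebra.TensorProduct.tmul_mul_tmul, Algebra.TensorProduct.tmul_mul_tmul,
            mul_one, one_mul, mul_one, Algebra.TensorProduct.productMap_apply_tmul]
          rfl
        rw [e]
        exact Ideal.mul_mem_left _ _ (Ideal.subset_span ⟨b, rfl⟩)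
      | add x y hx hy =>
        have e : x + y - (ev w (x + y)) ⊗ₜ[K] (1 : B)
            = (x - (ev w x) ⊗ₜ[K] (1 : B)) + (y - (ev w y) ⊗ₜ[K] (1 : B)) := by
          rw [map_add, TensorProduct.add_tmul]
          abel
        rw [e]
        exact add_mem hx hy
    intro t ht
    have h := key t
    rw [(mem_gI w t).1 ht, TensorProduct.zero_tmul, sub_zero] at h
    exact h
  · rw [Ideal.span_le]
    rintro _ ⟨b, rfl⟩
    exact gδ_mem w b

/-- PROOF.  `gδ w x ∈ gI w`; if it were `0`: pick a `K`-linear `φ : R → K` with `φ 1 = 1`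
(`Module.Free`/`exists_dual_map_eq..`, or a basis extending `1`; e.g. `Module.projective_lifting`, simplest:
`(LinearMap.toSpanSingleton K R 1)` is injective, `LinearMap.exists_leftInverse_of_injective`), apply
`TensorProduct.lid K B ∘ LinearMap.rTensor B φ` to get `x - φ (w x) • 1 = 0`, contradiction with `hx`. -/
theorem gI_ne_bot [Nontrivial R] (w : B →ₐ[K] R) (x : B) (hx : ∀ c : K, x ≠ algebraMap K B c) :
    gI w ≠ ⊥ := by
  intro hbot
  have h0 : gδ w x = 0 := by
    have := gδ_mem w x
    rwa [hbot, Ideal.mem_bot] at this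
  have hinj : LinearMap.ker (LinearMap.toSpanSingleton K R 1) = ⊥ := by
    rw [LinearMap.ker_eq_bot]
    intro a b hab
    have : a • (1 : R) = b • (1 : R) := hab
    rw [← Algebra.algebraMap_eq_smul_one, ← Algebra.algebraMap_eq_smul_one] at this
    exact (algebraMap K R).injective this
  obtain ⟨φ, hφ⟩ := (LinearMap.toSpanSingleton K R 1).exists_leftInverse_of_injective hinj
  have hφ1 : φ 1 = 1 := by
    have := LinearMap.congr_fun hφ 1
    simpa using this
  have h1 := congrArg (fun t => TensorProduct.lid K B (LinearMap.rTensor B φ t)) h0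
  simp only [gδ, map_sub, LinearMap.rTensor_tmul, TensorProduct.lid_tmul, hφ1, one_smul,
    map_zero] at h1
  exact hx (φ (w x)) (by rw [Algebra.algebraMap_eq_smul_one]; exact sub_eq_zero.1 h1)

end Fermat.Agent.S26.PK
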