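/-
S26 / Rig / PK / Compat : behaviour of graph ideals under the localisation `B → B' = B[1/x]`.
(package PK-3)
-/
import Fermat.Agent.S26.Rig.PK.Graph
import Fermat.Agent.S26.Curve.CV0

set_option autoImplicit false

open scoped TensorProduct

universe u

namespace Fermat.Agent.S26.PK

variable {K : Type u} [Field K] {B B' R : Type u} [CommRing B] [Algebra K B] [CommRing B']
  [Algebra K B'] [CommRing R] [Algebra K R]

/-- `(ev w).comp (id ⊗ j) = ev (w.comp j)` (`Algebra.TensorProduct.ext`), then `RingHom.comap_ker`/`ext`. -/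
theorem gI_comap (j : B →ₐ[K] B') (w : B' →ₐ[K] R) :
    (gI w).comap (Algebra.TensorProduct.map (AlgHom.id K R) j).toRingHom = gI (w.comp j) := by
  have h : (ev w).comp (Algebra.TensorProduct.map (AlgHom.id K R) j) = ev (w.comp j) := by
    ext <;> simp
  ext t
  rw [Ideal.mem_comap, mem_gI, mem_gI, ← h]
  rfl

/-- PROOF.  `≤` : `Ideal.map_le_iff_le_comap` + `gI_comap`.  `≥` : by `gI_eq_span` show `gδ w b' ∈ map` for all `b'`.
`(id ⊗ j) (gδ (w.comp j) a) = gδ w (j a)`.  `b' * j x ^ n = j a`; `gδ_mul`: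
`gδ w (j a) = (1 ⊗ b') * gδ w (j (x ^ n)) + (w (j x ^ n) ⊗ 1) * gδ w b'`, and `w (j x ^ n) ⊗ 1` is a unit of `R ⊗ B'`
with inverse `w (y' ^ n) ⊗ 1`. -/
theorem gI_map (j : B →ₐ[K] B') (x : B) (y' : B') (hxy : j x * y' = 1)
    (hloc : ∀ b' : B', ∃ (n : ℕ) (a : B), b' * j x ^ n = j a) (w : B' →ₐ[K] R) :
    (gI (w.comp j)).map (Algebra.TensorProduct.map (AlgHom.id K R) j).toRingHom = gI w := by
  apply le_antisymm
  · rw [Ideal.map_le_iff_le_comap, gI_comap]
  · rw [gI_eq_span w, Ideal.span_le]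
    rintro _ ⟨b', rfl⟩
    obtain ⟨n, a, hna⟩ := hloc b'
    have hJδ : ∀ a : B, (Algebra.TensorProduct.map (AlgHom.id K R) j).toRingHom
        (gδ (w.comp j) a) = gδ w (j a) := by
      intro a
      simp [gδ]
    have hmem : ∀ a : B, gδ w (j a) ∈
        (gI (w.comp j)).map (Algebra.TensorProduct.map (AlgHom.id K R) j).toRingHom := fun a => by
      rw [← hJδ]
      exact Ideal.mem_map_of_mem _ (gδ_mem _ a)
    have h1 : gδ w (j a) = ((1 : R) ⊗ₜ[K] b') * gδ w (j (x ^ n))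
        + (w (j (x ^ n)) ⊗ₜ[K] (1 : B')) * gδ w b' := by
      rw [← hna, ← map_pow, gδ_mul]
    have h2 : (w (j (x ^ n)) ⊗ₜ[K] (1 : B')) * gδ w b' ∈
        (gI (w.comp j)).map (Algebra.TensorProduct.map (AlgHom.id K R) j).toRingHom := by
      have h : (w (j (x ^ n)) ⊗ₜ[K] (1 : B')) * gδ w b'
          = gδ w (j a) - ((1 : R) ⊗ₜ[K] b') * gδ w (j (x ^ n)) := by
        rw [h1]; ring
      rw [h]
      exact Ideal.sub_mem _ (hmem a) (Ideal.mul_mem_left _ _ (hmem _))
    have h3 : (w (y' ^ n) ⊗ₜ[K] (1 : B')) * ((w (j (x ^ n)) ⊗ₜ[K] (1 : B')) * gδ w b')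
        = gδ w b' := by
      rw [← mul_assoc, Algebra.TensorProduct.tmul_mul_tmul, ← map_mul, map_pow, ← mul_pow,
        mul_comm y', hxy, one_pow, map_one, mul_one]
      exact one_mul _
    show gδ w b' ∈ _
    rw [← h3]
    exact Ideal.mul_mem_left _ _ h2

/-- `1 ⊗ x ∈ gI q` is mapped to the unit `1 ⊗ j x` (`Ideal.eq_top_of_isUnit_mem`). -/
theorem gI_map_eq_top (j : B →ₐ[K] B') (x : B) (y' : B') (hxy : j x * y' = 1) (q : B →ₐ[K] R)
    (hq : q x = 0) :
    (gI q).map (Algebra.TensorProduct.map (AlgHom.id K R) j).toRingHom = ⊤ := by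
  apply Ideal.eq_top_of_isUnit_mem _ (x := (1 : R) ⊗ₜ[K] j x)
  · have h : (1 : R) ⊗ₜ[K] x ∈ gI q := by
      rw [mem_gI]
      simp [hq]
    exact Ideal.mem_map_of_mem (Algebra.TensorProduct.map (AlgHom.id K R) j).toRingHom h
  · refine IsUnit.of_mul_eq_one ((1 : R) ⊗ₜ[K] y') ?_
    rw [Algebra.TensorProduct.tmul_mul_tmul, hxy, mul_one]
    rfl

/-- PROOF.  `letI := j.toRingHom.toAlgebra`; `CV0_isLocalization` (Curve/CV0.lean) gives `IsLocalization.Away x B'`;
`IsLocalization.Away.lift x (g := q.toRingHom) (isUnit of q x ≠ 0)`; it is a `K`-algebra hom because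
`algebraMap K B' c = j (algebraMap K B c)`. -/
theorem exists_extension (j : B →ₐ[K] B') (hj : Function.Injective j) (x : B) (y' : B')
    (hxy : j x * y' = 1) (hloc : ∀ b' : B', ∃ (n : ℕ) (a : B), b' * j x ^ n = j a)
    (q : B →ₐ[K] K) (hq : q x ≠ 0) : ∃ q' : B' →ₐ[K] K, q'.comp j = q := by
  let _ := j.toRingHom.toAlgebra
  have : IsLocalization.Away x B' := CV0_isLocalization x y' hj hxy hloc
  have hu : IsUnit (q.toRingHom x) := isUnit_iff_ne_zero.2 hq
  have hf : ∀ b, IsLocalization.Away.lift (S := B') x hu (j b) = q b :=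
    fun b => IsLocalization.Away.lift_eq x hu b
  refine ⟨{ IsLocalization.Away.lift (S := B') x hu with commutes' := fun c => ?_ }, ?_⟩
  · show IsLocalization.Away.lift (S := B') x hu (algebraMap K B' c) = algebraMap K K c
    rw [← j.commutes c, hf, q.commutes]
  · ext b
    exact hf b

end Fermat.Agent.S26.PK
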