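/-
S26 / Rig / PK / Inv : an ideal of a noetherian domain whose fibres at all maximal ideals are at most
one dimensional is an invertible module.   (package PK-1; pure algebra)
-/
import Fermat.Agent.S26.Alg.InvPair

set_option autoImplicit false

universe u

namespace Fermat.Agent.S26.PK

/-- PROOF.  Pairing `μ : Module.Dual T I × I → T`, `μ ℓ a = ℓ a` and `invPair_invertible` (Alg/InvPair.lean).
`h2 : ℓ a • a' = ℓ a' • a` : both are `ℓ (a' • a) = ℓ (a • a')` (in `↥I`, `(a' : T) • a = (a : T) • a'` by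
`mul_comm`).  `h1 : ℓ a • ℓ' = ℓ' a • ℓ` : evaluate at `a''` and use `h2` inside `ℓ'`.
`h3` : the ideal `𝔞` spanned by the values is not contained in any maximal ideal `𝔑`
(`Ideal.exists_le_maximal`): take `f, t` from `h`; `t ≠ 0` (otherwise `f * a = 0` for all `a ∈ I`, `f ≠ 0`, so
`I = ⊥`); `ℓ : I → T`, `ℓ a :=` the unique `b` with `f * a = b * t` (choose; linear because `T` is a domain
and `t ≠ 0`); `ℓ ⟨t, _⟩ = f`, so `f ∈ 𝔞`, `f ∉ 𝔑`. -/
theorem invertible_of_locally_principal {T : Type u} [CommRing T] [IsDomain T] (I : Ideal T)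
    (hI : I ≠ ⊥)
    (h : ∀ 𝔑 : Ideal T, 𝔑.IsMaximal → ∃ f : T, f ∉ 𝔑 ∧ ∃ t ∈ I, ∀ a ∈ I, ∃ b, f * a = b * t) :
    Module.Invertible T I := by
  have h2 : ∀ (ℓ : Module.Dual T I) (a a' : I), ℓ a • a' = ℓ a' • a := by
    intro ℓ a a'
    have e : (a' : T) • a = (a : T) • a' := Subtype.ext (mul_comm _ _)
    have e2 := congrArg ℓ e
    rw [map_smul, map_smul, smul_eq_mul, smul_eq_mul] at e2
    apply Subtype.ext
    show ℓ a * (a' : T) = ℓ a' * (a : T)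
    rw [mul_comm, e2, mul_comm]
  have h1 : ∀ (ℓ ℓ' : Module.Dual T I) (a : I), ℓ a • ℓ' = ℓ' a • ℓ := by
    intro ℓ ℓ' a
    ext a''
    have e := congrArg ℓ' (h2 ℓ a a'')
    rw [map_smul, map_smul, smul_eq_mul, smul_eq_mul] at e
    show ℓ a * ℓ' a'' = ℓ' a * ℓ a''
    rw [e, mul_comm]
  refine invPair_invertible (LinearMap.id : Module.Dual T I →ₗ[T] Module.Dual T I) h1 h2 ?_
  by_contra hne
  obtain ⟨𝔑, h𝔑, hle⟩ := Ideal.exists_le_maximal _ hne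
  obtain ⟨f, hf, t, ht, hft⟩ := h 𝔑 h𝔑
  have hf0 : f ≠ 0 := fun h0 => hf (h0 ▸ 𝔑.zero_mem)
  have ht0 : t ≠ 0 := by
    rintro rfl
    apply hI
    rw [eq_bot_iff]
    intro a ha
    obtain ⟨b, hb⟩ := hft a ha
    rw [mul_zero] at hb
    exact (mul_eq_zero.1 hb).resolve_left hf0
  choose b hb using fun a : I => hft a a.2
  let ℓ : Module.Dual T I :=
    { toFun := b
      map_add' := fun x y => by
        apply mul_right_cancel₀ ht0
        rw [add_mul, ← hb, ← hb, ← hb, ← mul_add]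
        rfl
      map_smul' := fun c x => by
        apply mul_right_cancel₀ ht0
        rw [RingHom.id_apply, smul_eq_mul, mul_assoc, ← hb, ← hb]
        show f * (c * (x : T)) = c * (f * (x : T))
        ring }
  have hℓ : ℓ ⟨t, ht⟩ = f := by
    apply mul_right_cancel₀ ht0
    exact (hb ⟨t, ht⟩).symm
  exact hf (hle (Ideal.subset_span ⟨ℓ, ⟨t, ht⟩, hℓ⟩))

/-- Nakayama.  PROOF.  In the module `T ⧸ span {t}` let `N` be the image of `I` (`Submodule.map (mkQ)`); it is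
f.g. and `N ≤ 𝔑 • N`; `Submodule.exists_sub_one_mem_and_smul_eq_zero_of_fg_of_le_smul` gives `r` with
`r - 1 ∈ 𝔑` and `r • N = 0`, i.e. `r * a ∈ span {t}` for `a ∈ I` (`Ideal.mem_span_singleton'`);
`r ∉ 𝔑` since `1 ∉ 𝔑`. -/
theorem exists_mul_eq_of_le_sup {T : Type u} [CommRing T] (I 𝔑 : Ideal T) (hfg : I.FG)
    (h𝔑 : 𝔑 ≠ ⊤) (t : T) (h : I ≤ Ideal.span {t} ⊔ 𝔑 * I) :
    ∃ f : T, f ∉ 𝔑 ∧ ∀ a ∈ I, ∃ b, f * a = b * t := by
  set q : T →ₗ[T] T ⧸ (Ideal.span {t} : Ideal T) := Submodule.mkQ (Ideal.span {t} : Ideal T) with hq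
  have hN : (Submodule.map q I).FG := Submodule.FG.map q hfg
  have hle : Submodule.map q I ≤ 𝔑 • Submodule.map q I := by
    rintro _ ⟨a, ha, rfl⟩
    obtain ⟨y, hy, x, hx, rfl⟩ := Submodule.mem_sup.1 (h ha)
    have hy0 : q y = 0 := (Submodule.Quotient.mk_eq_zero _).2 hy
    rw [map_add, hy0, zero_add, ← Submodule.map_smul'']
    exact ⟨x, hx, rfl⟩
  obtain ⟨r, hr, hr0⟩ :=
    Submodule.exists_sub_one_mem_and_smul_eq_zero_of_fg_of_le_smul 𝔑 _ hN hle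
  refine ⟨r, fun hr𝔑 => h𝔑 ((Ideal.eq_top_iff_one 𝔑).2 ?_), fun a ha => ?_⟩
  · have := 𝔑.sub_mem hr𝔑 hr
    rwa [sub_sub_cancel] at this
  · have h1 := hr0 (q a) ⟨a, ha, rfl⟩
    rw [← map_smul] at h1
    have h2 : r • a ∈ (Ideal.span {t} : Ideal T) := (Submodule.Quotient.mk_eq_zero _).1 h1
    obtain ⟨b, hb⟩ := Ideal.mem_span_singleton'.1 h2
    exact ⟨b, hb.symm⟩

/-- PROOF.  `invertible_of_locally_principal`; if `I ≤ 𝔑` use `h` and `exists_mul_eq_of_le_sup`; otherwise pick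
`t ∈ I`, `t ∉ 𝔑` and `f := t`, `b := a`. -/
theorem invertible_of_cotangent {T : Type u} [CommRing T] [IsDomain T] [IsNoetherianRing T]
    (I : Ideal T) (hI : I ≠ ⊥)
    (h : ∀ 𝔑 : Ideal T, 𝔑.IsMaximal → I ≤ 𝔑 → ∃ t ∈ I, I ≤ Ideal.span {t} ⊔ 𝔑 * I) :
    Module.Invertible T I := by
  refine invertible_of_locally_principal I hI fun 𝔑 h𝔑 => ?_
  by_cases hle : I ≤ 𝔑
  · obtain ⟨t, ht, hsup⟩ := h 𝔑 h𝔑 hle
    obtain ⟨f, hf, hft⟩ := exists_mul_eq_of_le_sup I 𝔑 (IsNoetherian.noetherian I) h𝔑.ne_top t hsup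
    exact ⟨f, hf, t, ht, hft⟩
  · obtain ⟨t, ht, ht𝔑⟩ := SetLike.not_le_iff_exists.1 hle
    exact ⟨t, ht𝔑, t, ht, fun a _ => ⟨a, mul_comm _ _⟩⟩

/-- the unit ideal is an invertible module (`Submodule.topEquiv`, `Module.Invertible.congr`) -/
theorem invertible_top {T : Type u} [CommRing T] : Module.Invertible T (⊤ : Ideal T) :=
  Module.Invertible.congr (Submodule.topEquiv (R := T) (M := T)).symm

end Fermat.Agent.S26.PK
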