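/-
S26 / Rig / PK / GraphInv : the graph ideal `gI w = ker (R ⊗ B → R)` of an `R`-valued point `w` of a Dedekind
`K`-algebra `B` is an invertible module.   (package PK-2b)
-/
import Fermat.Agent.S26.Rig.PK.Graph
import Fermat.Agent.S26.Rig.PK.Inv
import Fermat.Agent.S26.Alg.T7a.Points

set_option autoImplicit false

open scoped TensorProduct

universe u

namespace Fermat.Agent.S26.PK

variable {K : Type u} [Field K] {B R : Type u} [CommRing B] [Algebra K B] [CommRing R] [Algebra K R]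

/-! ### PK-2b : the cotangent computation, invertibility -/

/-- PROOF.  `q' := η.comp includeRight : B →ₐ[K] K`, `𝔪 := ker q'` maximal, `≠ ⊥` (`x - q' x ∈ 𝔪`, `hx`).  For
`m ∈ 𝔪`: `1 ⊗ m ∈ ker η` and `w m ⊗ 1 ∈ ker η` (because `gδ w m ∈ gI w ≤ ker η`).  Choose `π ∈ 𝔪`, `π ∉ 𝔪 ^ 2`
(`Ideal.exists_mem_pow_notMem_pow_succ` or `𝔪 ^ 2 < 𝔪` in a Dedekind domain, `Ideal.pow_succ_lt_pow`), `t := gδ w π`.
By `gI_eq_span` it is enough to show `gδ w b ∈ span {t} ⊔ ker η * gI w =: L` for all `b`.  `b = q' b + c`, `c ∈ 𝔪`,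
`gδ w b = gδ w c`.  `Ideal.exists_mul_add_mem_pow_succ` (`i = 1`): `c = π * d + e`, `e ∈ 𝔪 ^ 2`.
`gδ w (π * d) = (1 ⊗ π) * gδ w d + (w d ⊗ 1) * t ∈ L`.  `e ∈ 𝔪 ^ 2 = 𝔪 * 𝔪`: `Submodule.mul_induction_on`,
`gδ w (m * m') = (1 ⊗ m) * gδ w m' + (w m' ⊗ 1) * gδ w m ∈ ker η * gI w`. -/
theorem gI_le_sup [IsDedekindDomain B] (x : B) (hx : ∀ c : K, x ≠ algebraMap K B c)
    (w : B →ₐ[K] R) (η : R ⊗[K] B →ₐ[K] K) (hη : gI w ≤ RingHom.ker η) :
    ∃ t ∈ gI w, gI w ≤ Ideal.span {t} ⊔ RingHom.ker η * gI w := by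
  set q' : B →ₐ[K] K := η.comp Algebra.TensorProduct.includeRight with hq'
  set 𝔪 : Ideal B := RingHom.ker q' with h𝔪
  have hsurj : Function.Surjective q' := fun c => ⟨algebraMap K B c, q'.commutes c⟩
  have hmax : 𝔪.IsMaximal := RingHom.ker_isMaximal_of_surjective _ hsurj
  have hprime : 𝔪.IsPrime := hmax.isPrime
  have hsub : ∀ b : B, b - algebraMap K B (q' b) ∈ 𝔪 := by
    intro b
    rw [h𝔪, RingHom.mem_ker, map_sub, q'.commutes]
    simp
  have hbot : 𝔪 ≠ ⊥ := by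
    intro h0
    have h := hsub x
    rw [h0, Ideal.mem_bot, sub_eq_zero] at h
    exact hx _ h
  have h1 : ∀ m ∈ 𝔪, (1 : R) ⊗ₜ[K] m ∈ RingHom.ker η := fun m hm => hm
  have h2 : ∀ m ∈ 𝔪, w m ⊗ₜ[K] (1 : B) ∈ RingHom.ker η := by
    intro m hm
    have h := (RingHom.ker η).sub_mem (h1 m hm) (hη (gδ_mem w m))
    rwa [gδ, sub_sub_cancel] at h
  obtain ⟨π, hπ1, hπ2⟩ := Ideal.exists_mem_pow_notMem_pow_succ 𝔪 hbot hmax.ne_top 1
  refine ⟨gδ w π, gδ_mem w π, ?_⟩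
  set L : Ideal (R ⊗[K] B) := Ideal.span {gδ w π} ⊔ RingHom.ker η * gI w with hL
  have hL1 : gδ w π ∈ L := Ideal.mem_sup_left (Ideal.mem_span_singleton_self _)
  have hL2 : ∀ a ∈ RingHom.ker η, ∀ b ∈ gI w, a * b ∈ L := fun a ha b hb =>
    Ideal.mem_sup_right (Ideal.mul_mem_mul ha hb)
  have hπ𝔪 : π ∈ 𝔪 := by rwa [pow_one] at hπ1
  have hsq : ∀ e ∈ 𝔪 * 𝔪, gδ w e ∈ L := by
    intro e he
    induction he using Submodule.mul_induction_on' with
    | mem_mul_mem m hm m' hm' =>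
      rw [gδ_mul]
      exact L.add_mem (hL2 _ (h1 m hm) _ (gδ_mem w m')) (hL2 _ (h2 m' hm') _ (gδ_mem w m))
    | add a _ b _ ha hb =>
      rw [gδ_add]
      exact L.add_mem ha hb
  have key : ∀ b, gδ w b ∈ L := by
    intro b
    obtain ⟨d, e, he, hde⟩ := Ideal.exists_mul_add_mem_pow_succ hbot π
      (b - algebraMap K B (q' b)) hπ1 hπ2 (by rw [pow_one]; exact hsub b)
    have hb : b = π * d + e + algebraMap K B (q' b) := by rw [hde]; ring
    rw [hb, gδ_add, gδ_add, gδ_algebraMap, add_zero, gδ_mul]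
    refine L.add_mem (L.add_mem (hL2 _ (h1 π hπ𝔪) _ (gδ_mem w d)) (L.mul_mem_left _ hL1)) ?_
    exact hsq e (by rwa [one_add_one_eq_two, pow_two] at he)
  calc gI w = Ideal.span (Set.range (gδ w)) := gI_eq_span w
    _ ≤ L := Ideal.span_le.2 (by rintro _ ⟨b, rfl⟩; exact key b)

/-- PROOF.  `invertible_of_cotangent` (Inv.lean); `R ⊗ B` is of finite type over `K`
(`Algebra.FiniteType` instance for tensor products / `Algebra.FiniteType.trans`/`baseChange`), hence noetherian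
(`Algebra.FiniteType.isNoetherianRing K _`); every maximal ideal is `ker η`
(`T7a.exists_algHom_of_isMaximal`, Alg/T7a/Points.lean); `gI_le_sup`; `gI_ne_bot`
(`R` is nontrivial because `R ⊗ B` is). -/
theorem gI_invertible [IsAlgClosed K] [IsDedekindDomain B] [Algebra.FiniteType K B]
    [Algebra.FiniteType K R] [IsDomain (R ⊗[K] B)] (x : B) (hx : ∀ c : K, x ≠ algebraMap K B c)
    (w : B →ₐ[K] R) : Module.Invertible (R ⊗[K] B) (gI w) := by
  have hft : Algebra.FiniteType K (R ⊗[K] B) :=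
    Algebra.FiniteType.trans (S := R) inferInstance inferInstance
  have hnoeth : IsNoetherianRing (R ⊗[K] B) := Algebra.FiniteType.isNoetherianRing K _
  have hR : Nontrivial R := by
    by_contra hR
    rw [not_nontrivial_iff_subsingleton] at hR
    have h01 : (0 : R ⊗[K] B) = 1 := by
      rw [Algebra.TensorProduct.one_def, Subsingleton.elim (1 : R) 0, TensorProduct.zero_tmul]
    exact zero_ne_one h01
  refine invertible_of_cotangent (gI w) (gI_ne_bot w x hx) fun 𝔑 h𝔑 hle => ?_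
  obtain ⟨η, hη⟩ := T7a.exists_algHom_of_isMaximal (K := K) 𝔑
  rw [← hη] at hle ⊢
  exact gI_le_sup x hx w η hle

end Fermat.Agent.S26.PK
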