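/-
S26 / Rig / PK / Pt : the ideal triple of a point of `C`, the class `[Q]`.   (helper83)
-/
import Fermat.Agent.S26.Rig.PK.GraphInv
import Fermat.Agent.S26.Rig.PK.Compat

set_option autoImplicit false

open scoped TensorProduct

universe u

namespace Fermat.Agent.S26.PK

variable {K : Type u} [Field K]

theorem ne_algebraMap_of_basis {B : Type u} [CommRing B] [Algebra K B] {r : ℕ} (hr : 0 < r) (x : B)
    (e : Fin r → B)
    (h : ∀ b : B, ∃! p : Fin r → Polynomial K, b = ∑ i, Polynomial.aeval x (p i) * e i) (c : K) :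
    x ≠ algebraMap K B c := by
  intro hx
  let i0 : Fin r := ⟨0, hr⟩
  obtain ⟨p, -, hu⟩ := h 0
  have h1 : (fun _ => 0 : Fin r → Polynomial K) = p := hu _ (by simp)
  have h2 : (Pi.single i0 (Polynomial.X - Polynomial.C c) : Fin r → Polynomial K) = p := by
    apply hu
    rw [Finset.sum_eq_single i0]
    · rw [Pi.single_eq_same]
      simp [hx]
    · intro j _ hj
      rw [Pi.single_eq_of_ne hj]
      simp
    · intro hi
      exact absurd (Finset.mem_univ _) hi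
  have h3 := congrFun (h2.trans h1.symm) i0
  rw [Pi.single_eq_same] at h3
  exact Polynomial.X_sub_C_ne_zero c h3

variable [IsAlgClosed K] (C : Curve K)

theorem x_ne (c : K) : C.x ≠ algebraMap K C.B0 c :=
  ne_algebraMap_of_basis C.r_pos C.x C.e0 C.basis0 c

theorem y_ne (c : K) : C.y ≠ algebraMap K C.B1 c :=
  ne_algebraMap_of_basis C.r_pos C.y C.e1 C.basis1 c

theorem jx_ne (c : K) : C.j0 C.x ≠ algebraMap K C.B01 c := fun h =>
  x_ne C c (C.j0_inj (h.trans (C.j0.commutes c).symm))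

theorem yx : C.j1 C.y * C.j0 C.x = 1 := by rw [mul_comm]; exact C.xy

section inv

variable {R : Type u} [CommRing R] [Algebra K R] [IsDomain R] [Algebra.FiniteType K R]

theorem inv_gI0 (w : C.B0 →ₐ[K] R) : Module.Invertible (C.S0 R) (gI w) :=
  have := C.isDomain_S0 R
  have := C.finiteType_B0
  gI_invertible C.x (x_ne C) w

theorem inv_gI1 (w : C.B1 →ₐ[K] R) : Module.Invertible (C.S1 R) (gI w) :=
  have := C.isDomain_S1 R
  have := C.finiteType_B1
  gI_invertible C.y (y_ne C) w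

theorem inv_gI01 (w : C.B01 →ₐ[K] R) : Module.Invertible (C.S01 R) (gI w) :=
  have := C.isDomain_S01 R
  have := C.finiteType_B01
  have := C.isDedekindDomain_B01
  gI_invertible (C.j0 C.x) (jx_ne C) w

/-- the ideal triple of an `R`-valued point of the overlap -/
noncomputable def idl01 (w : C.B01 →ₐ[K] R) : CIdl C R where
  I0 := gI (w.comp C.j0)
  I1 := gI (w.comp C.j1)
  I01 := gI w
  inv0 := inv_gI0 C _
  inv1 := inv_gI1 C _
  inv01 := inv_gI01 C _
  map0 := gI_map C.j0 C.x (C.j1 C.y) C.xy C.loc0 w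
  map1 := gI_map C.j1 C.y (C.j0 C.x) (yx C) C.loc1 w

end inv

/-- the `K`-points of the two charts of `C` -/
abbrev Pt : Type u := (C.B0 →ₐ[K] K) ⊕ (C.B1 →ₐ[K] K)

/-- a point of the overlap -/
def pt01 (q : C.B01 →ₐ[K] K) : Pt C := Sum.inl (q.comp C.j0)

/-- a point of the chart `0` is on the boundary or on the overlap -/
theorem cases0 (q : C.B0 →ₐ[K] K) :
    (q C.x = 0 ∧ (gI q).map (C.J0 K).toRingHom = ⊤ ∧
      ((gI q).map (C.J0 K).toRingHom).comap (C.J1 K).toRingHom = ⊤) ∨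
    ∃ q01 : C.B01 →ₐ[K] K, q01.comp C.j0 = q ∧ (gI q).map (C.J0 K).toRingHom = gI q01 ∧
      ((gI q).map (C.J0 K).toRingHom).comap (C.J1 K).toRingHom = gI (q01.comp C.j1) := by
  by_cases hq : q C.x = 0
  · have h := gI_map_eq_top C.j0 C.x (C.j1 C.y) C.xy q hq
    exact Or.inl ⟨hq, h, by rw [h, Ideal.comap_top]⟩
  · obtain ⟨q01, rfl⟩ := exists_extension C.j0 C.j0_inj C.x (C.j1 C.y) C.xy C.loc0 q hq
    have h := gI_map C.j0 C.x (C.j1 C.y) C.xy C.loc0 q01
    exact Or.inr ⟨q01, rfl, h, by rw [h]; exact gI_comap C.j1 q01⟩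

theorem cases1 (q : C.B1 →ₐ[K] K) :
    (q C.y = 0 ∧ (gI q).map (C.J1 K).toRingHom = ⊤ ∧
      ((gI q).map (C.J1 K).toRingHom).comap (C.J0 K).toRingHom = ⊤) ∨
    ∃ q01 : C.B01 →ₐ[K] K, q01.comp C.j1 = q ∧ (gI q).map (C.J1 K).toRingHom = gI q01 ∧
      ((gI q).map (C.J1 K).toRingHom).comap (C.J0 K).toRingHom = gI (q01.comp C.j0) := by
  by_cases hq : q C.y = 0
  · have h := gI_map_eq_top C.j1 C.y (C.j0 C.x) (yx C) q hq
    exact Or.inl ⟨hq, h, by rw [h, Ideal.comap_top]⟩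
  · obtain ⟨q01, rfl⟩ := exists_extension C.j1 C.j1_inj C.y (C.j0 C.x) (yx C) C.loc1 q hq
    have h := gI_map C.j1 C.y (C.j0 C.x) (yx C) C.loc1 q01
    exact Or.inr ⟨q01, rfl, h, by rw [h]; exact gI_comap C.j0 q01⟩

/-- the ideal triple of a point -/
noncomputable def ptIdl : Pt C → CIdl C K
  | Sum.inl q =>
    { I0 := gI q
      I01 := (gI q).map (C.J0 K).toRingHom
      I1 := ((gI q).map (C.J0 K).toRingHom).comap (C.J1 K).toRingHom
      inv0 := inv_gI0 C q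
      inv01 := by
        rcases cases0 C q with ⟨-, h, -⟩ | ⟨q01, -, h, -⟩
        · rw [h]; exact invertible_top
        · rw [h]; exact inv_gI01 C q01
      inv1 := by
        rcases cases0 C q with ⟨-, -, h⟩ | ⟨q01, -, -, h⟩
        · rw [h]; exact invertible_top
        · rw [h]; exact inv_gI1 C _
      map0 := rfl
      map1 := by
        rcases cases0 C q with ⟨-, h, h'⟩ | ⟨q01, -, h, h'⟩
        · rw [h', h, Ideal.map_top]
        · rw [h', h]; exact gI_map C.j1 C.y (C.j0 C.x) (yx C) C.loc1 q01 }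
  | Sum.inr q =>
    { I1 := gI q
      I01 := (gI q).map (C.J1 K).toRingHom
      I0 := ((gI q).map (C.J1 K).toRingHom).comap (C.J0 K).toRingHom
      inv1 := inv_gI1 C q
      inv01 := by
        rcases cases1 C q with ⟨-, h, -⟩ | ⟨q01, -, h, -⟩
        · rw [h]; exact invertible_top
        · rw [h]; exact inv_gI01 C q01
      inv0 := by
        rcases cases1 C q with ⟨-, -, h⟩ | ⟨q01, -, -, h⟩
        · rw [h]; exact invertible_top
        · rw [h]; exact inv_gI0 C _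
      map1 := rfl
      map0 := by
        rcases cases1 C q with ⟨-, h, h'⟩ | ⟨q01, -, h, h'⟩
        · rw [h', h, Ideal.map_top]
        · rw [h', h]; exact gI_map C.j0 C.x (C.j1 C.y) C.xy C.loc0 q01 }

theorem ptIdl_inl_I0 (q : C.B0 →ₐ[K] K) : (ptIdl C (Sum.inl q)).I0 = gI q := rfl
theorem ptIdl_inl_I1 (q : C.B0 →ₐ[K] K) : (ptIdl C (Sum.inl q)).I1 =
    ((gI q).map (C.J0 K).toRingHom).comap (C.J1 K).toRingHom := rfl
theorem ptIdl_inr_I1 (q : C.B1 →ₐ[K] K) : (ptIdl C (Sum.inr q)).I1 = gI q := rfl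
theorem ptIdl_inr_I0 (q : C.B1 →ₐ[K] K) : (ptIdl C (Sum.inr q)).I0 =
    ((gI q).map (C.J1 K).toRingHom).comap (C.J0 K).toRingHom := rfl

/-- on the overlap the ideal triple is the triple of graph ideals -/
theorem ptIdl_pt01 (q : C.B01 →ₐ[K] K) : ptIdl C (pt01 C q) = idl01 C q := by
  apply CIdl.ext'
  · rfl
  · show ((gI (q.comp C.j0)).map (C.J0 K).toRingHom).comap (C.J1 K).toRingHom = gI (q.comp C.j1)
    rw [show (gI (q.comp C.j0)).map (C.J0 K).toRingHom = gI q from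
      gI_map C.j0 C.x (C.j1 C.y) C.xy C.loc0 q]
    exact gI_comap C.j1 q

theorem ptIdl_inr_comp (q : C.B01 →ₐ[K] K) : ptIdl C (Sum.inr (q.comp C.j1)) = idl01 C q := by
  apply CIdl.ext'
  · show ((gI (q.comp C.j1)).map (C.J1 K).toRingHom).comap (C.J0 K).toRingHom = gI (q.comp C.j0)
    rw [show (gI (q.comp C.j1)).map (C.J1 K).toRingHom = gI q from
      gI_map C.j1 C.y (C.j0 C.x) (yx C) C.loc1 q]
    exact gI_comap C.j0 q
  · rfl

/-- the three kinds of points -/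
theorem ptIdl_cases (Q : Pt C) :
    (∃ q01 : C.B01 →ₐ[K] K, ptIdl C Q = idl01 C q01) ∨
    (∃ q : C.B0 →ₐ[K] K, Q = Sum.inl q ∧ q C.x = 0 ∧ (ptIdl C Q).I0 = gI q ∧ (ptIdl C Q).I1 = ⊤ ∧
      (ptIdl C Q).I01 = ⊤) ∨
    (∃ q : C.B1 →ₐ[K] K, Q = Sum.inr q ∧ q C.y = 0 ∧ (ptIdl C Q).I0 = ⊤ ∧ (ptIdl C Q).I1 = gI q ∧
      (ptIdl C Q).I01 = ⊤) := by
  rcases Q with q | q
  · rcases cases0 C q with ⟨hq, h, h'⟩ | ⟨q01, rfl, -, -⟩
    · exact Or.inr (Or.inl ⟨q, rfl, hq, rfl, h', h⟩)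
    · exact Or.inl ⟨q01, ptIdl_pt01 C q01⟩
  · rcases cases1 C q with ⟨hq, h, h'⟩ | ⟨q01, rfl, -, -⟩
    · exact Or.inr (Or.inr ⟨q, rfl, hq, h', rfl, h⟩)
    · exact Or.inl ⟨q01, ptIdl_inr_comp C q01⟩

/-- the line bundle `O(-Q)` -/
noncomputable def ptMod (Q : Pt C) : CMod C K := (ptIdl C Q).toCMod

/-- the class of `O(Q)` -/
noncomputable def ptCls (Q : Pt C) : Pic C K := - (ptMod C Q).cls

theorem cls_sub_ptCls (N : CMod C K) (Q : Pt C) :
    N.cls - ptCls C Q = (N.tensor (ptMod C Q)).cls := by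
  rw [ptCls, sub_neg_eq_add, Pic.cls_tensor]

end Fermat.Agent.S26.PK
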