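/-
S26 / Rig / PK / Fin : finiteness of zero loci, the boundary of the overlap.   (package PK-10)
-/
import Fermat.Agent.S26.Rig.PK.Pt

set_option autoImplicit false

open scoped TensorProduct

universe u

namespace Fermat.Agent.S26.PK

variable {K : Type u} [Field K]

/-- PROOF.  `q ↦ RingHom.ker q` is injective on `B →ₐ[K] K` (`b - algebraMap K B (q b) ∈ ker q = ker q'` gives `q' b = q b`)
and takes values in the set of prime (maximal) ideals containing `J`, which is finite in a Dedekind domain: e.g.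
`Ideal.finite_minimalPrimes_of_isNoetherianRing` (a maximal = nonzero prime ideal containing `J ≠ ⊥` is minimal over `J` because
nonzero primes are maximal: `Ideal.IsPrime.isMaximal`), or `Ideal.finite_factors` /
`IsDedekindDomain.HeightOneSpectrum` (`Ideal.finite_factors`), or `(normalizedFactors J).toFinset` with
`Ideal.dvd_iff_le`, `UniqueFactorizationMonoid.mem_normalizedFactors_iff`.  `Set.Finite.of_finite_image` + `Set.InjOn`. -/
theorem finite_setOf_le_ker {B : Type u} [CommRing B] [Algebra K B] [IsDedekindDomain B]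
    (J : Ideal B) (hJ : J ≠ ⊥) : {q : B →ₐ[K] K | J ≤ RingHom.ker q}.Finite := by
  have hsurj : ∀ q : B →ₐ[K] K, Function.Surjective q := fun q c => ⟨algebraMap K B c, by simp⟩
  have hinj : Set.InjOn (fun q : B →ₐ[K] K => RingHom.ker q) {q : B →ₐ[K] K | J ≤ RingHom.ker q} := by
    intro q _ q' _ (h : RingHom.ker q = RingHom.ker q')
    apply AlgHom.ext
    intro b
    have h1 : b - algebraMap K B (q b) ∈ RingHom.ker q := by
      rw [RingHom.mem_ker, map_sub, AlgHom.commutes]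
      simp
    rw [h, RingHom.mem_ker, map_sub, AlgHom.commutes, sub_eq_zero] at h1
    exact h1.symm
  refine Set.Finite.of_finite_image ?_ hinj
  refine (Ideal.finite_minimalPrimes_of_isNoetherianRing B J).subset ?_
  rintro _ ⟨q, hq, rfl⟩
  have hmax : (RingHom.ker q).IsMaximal := RingHom.ker_isMaximal_of_surjective q (hsurj q)
  refine ⟨⟨hmax.isPrime, hq⟩, ?_⟩
  rintro p' ⟨hp', hJp'⟩ hle
  have hne : p' ≠ ⊥ := by
    rintro rfl
    exact hJ (le_bot_iff.mp hJp')
  have hp'max : p'.IsMaximal := hp'.isMaximal hne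
  exact (hp'max.eq_of_le hmax.ne_top hle).ge

variable [IsAlgClosed K] (C : Curve K)

theorem finite_zeroLocus (J : Ideal C.B01) (hJ : J ≠ ⊥) :
    {q : C.B01 →ₐ[K] K | J ≤ RingHom.ker q}.Finite :=
  have := C.isDedekindDomain_B01
  finite_setOf_le_ker J hJ

/-- PROOF.  `S₀ :=` image under `Sum.inl` of `{q | q C.x = 0}` (finite by `finite_setOf_le_ker (Ideal.span {C.x})`,
`C.x ≠ 0` by `x_ne C 0`) union the image under `Sum.inr` of `{q | q C.y = 0}` (`Set.Finite.toFinset`, classical).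
`ptIdl_cases C Q`: in case (1) `ptIdl C Q = idl01 C q01 = ptIdl C (pt01 C q01)` (`ptIdl_pt01`) so `ptCls C Q = ptCls C (pt01 C q01)`
(unfold `ptCls`, `ptMod`; `congr`/`rw`); in cases (2), (3) `Q ∈ S₀`. -/
theorem exists_finite_boundary : ∃ S₀ : Finset (Pt C), ∀ Q : Pt C,
    Q ∈ S₀ ∨ ∃ q : C.B01 →ₐ[K] K, ptCls C Q = ptCls C (pt01 C q) := by
  classical
  have hx0 : Ideal.span {C.x} ≠ ⊥ := by
    rw [Ne, Ideal.span_singleton_eq_bot]
    have := x_ne C 0
    rwa [map_zero] at this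
  have hy0 : Ideal.span {C.y} ≠ ⊥ := by
    rw [Ne, Ideal.span_singleton_eq_bot]
    have := y_ne C 0
    rwa [map_zero] at this
  have hfx : {q : C.B0 →ₐ[K] K | q C.x = 0}.Finite := by
    refine (finite_setOf_le_ker (Ideal.span {C.x}) hx0).subset ?_
    intro q (hq : q C.x = 0)
    show Ideal.span {C.x} ≤ RingHom.ker q
    rw [Ideal.span_singleton_le_iff_mem]
    exact hq
  have hfy : {q : C.B1 →ₐ[K] K | q C.y = 0}.Finite := by
    refine (finite_setOf_le_ker (Ideal.span {C.y}) hy0).subset ?_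
    intro q (hq : q C.y = 0)
    show Ideal.span {C.y} ≤ RingHom.ker q
    rw [Ideal.span_singleton_le_iff_mem]
    exact hq
  have hfin : ((Sum.inl '' {q : C.B0 →ₐ[K] K | q C.x = 0}) ∪
      (Sum.inr '' {q : C.B1 →ₐ[K] K | q C.y = 0}) : Set (Pt C)).Finite :=
    (hfx.image _).union (hfy.image _)
  refine ⟨hfin.toFinset, fun Q => ?_⟩
  rcases ptIdl_cases C Q with ⟨q01, h⟩ | ⟨q, rfl, hq, -⟩ | ⟨q, rfl, hq, -⟩
  · refine Or.inr ⟨q01, ?_⟩
    unfold ptCls ptMod
    rw [h, ← ptIdl_pt01]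
  · exact Or.inl (hfin.mem_toFinset.2 (Or.inl ⟨q, hq, rfl⟩))
  · exact Or.inl (hfin.mem_toFinset.2 (Or.inr ⟨q, hq, rfl⟩))

end Fermat.Agent.S26.PK
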