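/-
S26 / Rig / PK / Deg : `deg [Q] = 1`.   (package PK-8)
-/
import Fermat.Agent.S26.Rig.PK.Pt

set_option autoImplicit false

open scoped TensorProduct

universe u

namespace Fermat.Agent.S26.PK

variable {K : Type u} [Field K]

/-- PROOF.  `dimOver` unfolds to `Module.finrank K` for the structure `Module.compHom _ (algebraMap K S)`.  `η` is
surjective (`η (algebraMap K S c) = c`), `range (ker η).subtype = ker η` (`Submodule.range_subtype`); the map
`S ⧸ ker η → K` induced by `η` is a `K`-linear bijection (`Submodule.liftQ`/`LinearMap.quotKerEquivOfSurjective` for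
`η.toLinearMap` after identifying the two `K`-structures on the quotient: `c • mk s = mk (algebraMap K S c * s)`);
`finrank K K = 1`. -/
theorem dimOver_quot_ker {S : Type u} [CommRing S] [Algebra K S] (η : S →ₐ[K] K) :
    dimOver K S (S ⧸ LinearMap.range (RingHom.ker η : Ideal S).subtype) = 1 := by
  unfold dimOver
  let _ : Module K (S ⧸ LinearMap.range (RingHom.ker η : Ideal S).subtype) :=
    Module.compHom _ (algebraMap K S)
  have hmem : ∀ s : S, s ∈ LinearMap.range (RingHom.ker η : Ideal S).subtype ↔ η s = 0 := by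
    intro s
    rw [Submodule.range_subtype]
    exact RingHom.mem_ker
  have nz : (Submodule.Quotient.mk 1 : S ⧸ LinearMap.range (RingHom.ker η : Ideal S).subtype) ≠ 0 := by
    intro h0
    rw [Submodule.Quotient.mk_eq_zero, hmem, map_one] at h0
    exact one_ne_zero h0
  refine (finrank_eq_one_iff_of_nonzero' _ nz).2 ?_
  intro w
  obtain ⟨s, rfl⟩ := Submodule.Quotient.mk_surjective _ w
  refine ⟨η s, ?_⟩
  show algebraMap K S (η s) • (Submodule.Quotient.mk 1 :
    S ⧸ LinearMap.range (RingHom.ker η : Ideal S).subtype) = _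
  rw [← Submodule.Quotient.mk_smul, Submodule.Quotient.eq, hmem, smul_eq_mul, mul_one, map_sub,
    η.commutes]
  exact sub_self _

/-- the quotient is a subsingleton (`Submodule.range_subtype`, `Submodule.subsingleton_quotient_iff_eq_top`),
`Module.finrank_zero_of_subsingleton` -/
theorem dimOver_quot_top {S : Type u} [CommRing S] [Algebra K S] :
    dimOver K S (S ⧸ LinearMap.range (⊤ : Ideal S).subtype) = 0 := by
  unfold dimOver
  let _ : Module K (S ⧸ LinearMap.range (⊤ : Ideal S).subtype) :=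
    Module.compHom _ (algebraMap K S)
  have : Subsingleton (S ⧸ LinearMap.range (⊤ : Ideal S).subtype) :=
    Submodule.Quotient.subsingleton_iff.2 (Submodule.range_subtype _)
  exact Module.finrank_zero_of_subsingleton

variable [IsAlgClosed K] (C : Curve K)

/-- the colength formula for an ideal triple -/
theorem Deg_deg_toCMod (𝓘 : CIdl C K) (h01 : 𝓘.I01 ≠ ⊥) (d0 d1 d01 : ℕ)
    (h0 : dimOver K (C.S0 K) (C.S0 K ⧸ LinearMap.range 𝓘.I0.subtype) = d0)
    (h1 : dimOver K (C.S1 K) (C.S1 K ⧸ LinearMap.range 𝓘.I1.subtype) = d1)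
    (h2 : dimOver K (C.S01 K) (C.S01 K ⧸ LinearMap.range 𝓘.I01.subtype) = d01) :
    𝓘.toCMod.deg = (d01 : ℤ) - d0 - d1 := by
  have hne : 𝓘.incl.f01 ≠ 0 := by
    intro hz
    apply h01
    rw [eq_bot_iff]
    intro a ha
    have : 𝓘.incl.f01 (⟨a, ha⟩ : 𝓘.I01) = 0 := by rw [hz]; rfl
    exact this
  have key := CMod.LHom.chi_eq 𝓘.incl hne
  have e0 : dimOver K (C.S0 K) ((CMod.one C K).N0 ⧸ LinearMap.range 𝓘.incl.f0) = d0 := h0
  have e1 : dimOver K (C.S1 K) ((CMod.one C K).N1 ⧸ LinearMap.range 𝓘.incl.f1) = d1 := h1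
  have e2 : dimOver K (C.S01 K) ((CMod.one C K).N01 ⧸ LinearMap.range 𝓘.incl.f01) = d01 := h2
  rw [e0, e1, e2] at key
  unfold CMod.deg
  rw [key]
  ring

/-- PROOF.  `ptCls C Q = - (ptMod C Q).cls`, `map_neg`, `Pic.deg_cls`, `CMod.deg = chi - chi (one)`.
`CMod.LHom.chi_eq` (Curve/Coh.lean) for `c := (ptIdl C Q).incl : LHom (ptMod C Q) (one C K)`:
`chi (one) = chi (ptMod) + d0 + d1 - d01`, `dε = dimOver K (Sε K) (Sε K ⧸ range Iε.subtype)` (the fields of `incl`, `one`
unfold by `rfl`).  `ptIdl_cases C Q`: (1) `ptIdl C Q = idl01 C q01`: the three ideals are `gI _ = RingHom.ker (ev _)`: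
`(1, 1, 1)`; (2), (3): `(1, 0, 0)`, `(0, 1, 0)` (rewrite the ideals with the equalities given by `ptIdl_cases`; to rewrite
under `dimOver` first generalise: state an auxiliary lemma for an arbitrary `𝓘 : CIdl C K` with hypotheses
`𝓘.I0 = ..`).  `c.f01 ≠ 0`: `I01 ≠ ⊥` (it is `⊤`, or `gI q01 ≠ ⊥` by `gI_ne_bot _ (C.j0 C.x) (jx_ne C)`), so some
`a ∈ I01` is `≠ 0`. -/
theorem deg_ptCls (Q : Pt C) : Pic.deg (ptCls C Q) = 1 := by
  rw [ptCls, map_neg, Pic.deg_cls, ptMod]
  have := C.isDomain_S01 K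
  rcases ptIdl_cases C Q with ⟨q01, h⟩ | ⟨q, -, -, h0, h1, h01⟩ | ⟨q, -, -, h0, h1, h01⟩
  · rw [h, Deg_deg_toCMod C (idl01 C q01) (gI_ne_bot q01 (C.j0 C.x) (jx_ne C)) 1 1 1
      (dimOver_quot_ker (ev (q01.comp C.j0))) (dimOver_quot_ker (ev (q01.comp C.j1)))
      (dimOver_quot_ker (ev q01))]
    norm_num
  · rw [Deg_deg_toCMod C (ptIdl C Q) (by rw [h01]; exact top_ne_bot) 1 0 0
      (by rw [h0]; exact dimOver_quot_ker (ev q)) (by rw [h1]; exact dimOver_quot_top)
      (by rw [h01]; exact dimOver_quot_top)]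
    norm_num
  · rw [Deg_deg_toCMod C (ptIdl C Q) (by rw [h01]; exact top_ne_bot) 0 1 0
      (by rw [h0]; exact dimOver_quot_top) (by rw [h1]; exact dimOver_quot_ker (ev q))
      (by rw [h01]; exact dimOver_quot_top)]
    norm_num

end Fermat.Agent.S26.PK
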