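/-
S26 / Rig / PK / Sat : membership in `I M` for a finite projective module `M`, tested by linear forms;
saturation along a base change.   (package PK-5)
-/
import Fermat.Agent.S26.Rig.PK.Defs

set_option autoImplicit false

open scoped TensorProduct

universe u

namespace Fermat.Agent.S26

namespace PK

variable {S T : Type u} [CommRing S] [CommRing T] (J : S →+* T) {M P : Type u} [AddCommGroup M]
  [Module S M] [AddCommGroup P] [Module T P]

/-- a linear form maps `I • ⊤` into `I`. -/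
theorem Sat_dual_mem {S M : Type u} [CommRing S] [AddCommGroup M] [Module S M] (I : Ideal S)
    (ℓ : Module.Dual S M) (n : M) (hn : n ∈ I • (⊤ : Submodule S M)) : ℓ n ∈ I := by
  induction hn using Submodule.smul_induction_on' with
  | smul a ha m _ =>
    rw [map_smul, smul_eq_mul]
    exact I.mul_mem_right _ ha
  | add x _ y _ hx hy =>
    rw [map_add]
    exact add_mem hx hy

/-- `⟹` : `Submodule.smul_induction_on`.  `⟸` : `SemiBC_exists_dualBasis` (Alg/SemiBC.lean): `n = ∑ l i n • e i`. -/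
theorem mem_smul_top_iff_dual [Module.Finite S M] [Module.Projective S M] (I : Ideal S) (n : M) :
    n ∈ I • (⊤ : Submodule S M) ↔ ∀ ℓ : Module.Dual S M, ℓ n ∈ I := by
  constructor
  · intro hn ℓ
    exact Sat_dual_mem I ℓ n hn
  · intro h
    obtain ⟨k, e, l, hel⟩ := SemiBC_exists_dualBasis S M
    rw [← hel n]
    exact Submodule.sum_mem _ fun i _ => Submodule.smul_mem_smul (h (l i)) Submodule.mem_top

/-- `Submodule.smul_induction_on`, `r.map_smulₛₗ`, `Ideal.mem_map_of_mem`. -/
theorem map_mem_smul_top (r : M →ₛₗ[J] P) (I : Ideal S) (n : M)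
    (hn : n ∈ I • (⊤ : Submodule S M)) : r n ∈ (I.map J) • (⊤ : Submodule T P) := by
  induction hn using Submodule.smul_induction_on' with
  | smul a ha m _ =>
    rw [r.map_smulₛₗ]
    exact Submodule.smul_mem_smul (Ideal.mem_map_of_mem J ha) Submodule.mem_top
  | add x _ y _ hx hy =>
    rw [map_add]
    exact add_mem hx hy

/-- PROOF.  By `mem_smul_top_iff_dual` show `J (ℓ n) ∈ I'` for every `ℓ`.  `J (ℓ n) = semiDual J hr ℓ (r n)`
(`semiDual_apply`, Alg/Semi.lean) and a `T`-linear form maps `I' • ⊤` into `I'` (`Submodule.smul_induction_on`). -/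
theorem mem_smul_top_of_comap [Module.Finite S M] [Module.Projective S M] (r : M →ₛₗ[J] P)
    (hr : IsBC J r) (I' : Ideal T) (n : M) (hn : r n ∈ I' • (⊤ : Submodule T P)) :
    n ∈ (I'.comap J) • (⊤ : Submodule S M) := by
  rw [mem_smul_top_iff_dual]
  intro ℓ
  rw [Ideal.mem_comap, ← semiDual_apply J hr ℓ n]
  exact Sat_dual_mem I' _ _ hn

end PK

variable {K : Type u} [Field K] {C : Curve K} {R : Type u} [CommRing R] [Algebra K R]

/-- PROOF.  `⟸` : `r1 s1 = r0 s0` (`CMod.r0_eq_r1_of_mem_H0`) `∈ (I0.map J0) • ⊤` by `PK.map_mem_smul_top`, then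
`PK.mem_smul_top_of_comap` with `N.isBC_r1` (Curve/Ops.lean), `have := N.inv1`. -/
theorem CMod.mem_secI_left (N : CMod C R) (I0 : Ideal (C.S0 R)) (s : N.toP1Mod.H0) :
    s ∈ N.secI I0 ((I0.map (C.J0 R).toRingHom).comap (C.J1 R).toRingHom) ↔
      (show N.N0 from s.1.1) ∈ I0 • (⊤ : Submodule (C.S0 R) N.N0) := by
  rw [CMod.mem_secI]
  constructor
  · exact fun h => h.1
  · intro h
    refine ⟨h, ?_⟩
    haveI := N.inv1
    apply PK.mem_smul_top_of_comap (C.J1 R).toRingHom N.r1 N.isBC_r1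
    rw [← CMod.r0_eq_r1_of_mem_H0]
    exact PK.map_mem_smul_top (C.J0 R).toRingHom N.r0 I0 _ h

theorem CMod.mem_secI_right (N : CMod C R) (I1 : Ideal (C.S1 R)) (s : N.toP1Mod.H0) :
    s ∈ N.secI ((I1.map (C.J1 R).toRingHom).comap (C.J0 R).toRingHom) I1 ↔
      (show N.N1 from s.1.2) ∈ I1 • (⊤ : Submodule (C.S1 R) N.N1) := by
  rw [CMod.mem_secI]
  constructor
  · exact fun h => h.2
  · intro h
    refine ⟨?_, h⟩
    haveI := N.inv0
    apply PK.mem_smul_top_of_comap (C.J0 R).toRingHom N.r0 N.isBC_r0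
    rw [CMod.r0_eq_r1_of_mem_H0]
    exact PK.map_mem_smul_top (C.J1 R).toRingHom N.r1 I1 _ h

end Fermat.Agent.S26
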