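/-
S26 / Rig / PK / Codim : vanishing at a `K`-point is one linear condition.   (package PK-6; pure algebra)
-/
import Fermat.Agent.S26.Rig.PK.Sat

set_option autoImplicit false

open scoped TensorProduct

universe u

namespace Fermat.Agent.S26.PK

variable {K : Type u} [Field K]

/-- PROOF.  `SemiBC_exists_dualBasis S M` gives `e i`, `l i` (`i : Fin n`).  `Λ : H →ₗ[K] (Fin n → K)`,
`Λ h i := η (l i (e' h))` (`K`-linear by `he`, `η.commutes`).  `ker Λ = V` by `hV` and `mem_smul_top_iff_dual`
(`⟸` of that lemma only needs the `l i`: `m = ∑ l i m • e i`; or use: every `ℓ` is `∑ ℓ (e i) • l i`).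
`finrank (range Λ) ≤ 1`: any two vectors of the range are proportional because
`l i m * l j m' = l i m' * l j m` for all `m m' : M`: apply the linear map
`TensorProduct.lift ((LinearMap.mul S S).compl₁₂ (l i) (l j)) : M ⊗ M → S` to `Module.Invertible.tmul_comm : m ⊗ₜ m' = m' ⊗ₜ m`
(Mathlib.RingTheory.PicardGroup).  (`finrank_le_one` : `∃ v, ∀ w, ∃ c, c • v = w`; if the range is not `0` take `v = Λ h₀`
with `Λ h₀ i₀ ≠ 0`, then `Λ h = (Λ h i₀ / Λ h₀ i₀) • Λ h₀`.)  `LinearMap.finrank_range_add_finrank_ker`.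
ALTERNATIVE: `M ⧸ ker η • ⊤ ≅ (S ⧸ ker η) ⊗ M ≅ S ⧸ ker η ≅ K` by `nonempty_tensor_equiv_of_invertible`. -/
theorem codim_le_one {S M H : Type u} [CommRing S] [Algebra K S] [AddCommGroup M] [Module S M]
    [Module.Invertible S M] [AddCommGroup H] [Module K H] [Module.Finite K H] (η : S →ₐ[K] K)
    (e' : H →+ M) (he : ∀ (c : K) (h : H), e' (c • h) = algebraMap K S c • e' h)
    (V : Submodule K H)
    (hV : ∀ h, h ∈ V ↔ e' h ∈ RingHom.ker η • (⊤ : Submodule S M)) :
    Module.finrank K H ≤ Module.finrank K V + 1 := by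
  classical
  have : Module.Finite S M := inferInstance
  have : Module.Projective S M := inferInstance
  obtain ⟨n, e, l, hel⟩ := SemiBC_exists_dualBasis S M
  -- the rank one identity
  have hcomm : ∀ (i j : Fin n) (m m' : M), l i m * l j m' = l i m' * l j m := by
    intro i j m m'
    have h1 := congrArg (TensorProduct.lift ((LinearMap.mul S S).compl₁₂ (l i) (l j)))
      (Module.Invertible.tmul_comm (R := S) (m₁ := m) (m₂ := m'))
    simpa using h1
  let Λ : H →ₗ[K] (Fin n → K) :=
    { toFun := fun h i => η (l i (e' h))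
      map_add' := by
        intro x y
        funext i
        simp only [map_add, Pi.add_apply]
      map_smul' := by
        intro c x
        funext i
        simp only [he, map_smul, smul_eq_mul, map_mul, AlgHom.commutes, Pi.smul_apply,
          RingHom.id_apply, Algebra.algebraMap_self_apply] }
  have hΛ : ∀ h i, Λ h i = η (l i (e' h)) := fun _ _ => rfl
  have hker : LinearMap.ker Λ = V := by
    ext h
    rw [LinearMap.mem_ker, hV, mem_smul_top_iff_dual]
    constructor
    · intro h0 ℓ
      rw [← hel (e' h), map_sum]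
      refine Ideal.sum_mem _ fun i _ => ?_
      rw [map_smul, smul_eq_mul]
      refine Ideal.mul_mem_right _ _ ?_
      rw [RingHom.mem_ker]
      exact congrFun h0 i
    · intro h0
      funext i
      exact h0 (l i)
  have hrange : Module.finrank K (LinearMap.range Λ) ≤ 1 := by
    by_cases hz : ∀ h, Λ h = 0
    · have : LinearMap.range Λ = ⊥ := by
        rw [LinearMap.range_eq_bot]
        ext h : 1
        exact hz h
      rw [this, finrank_bot]
      exact Nat.zero_le 1
    · push Not at hz
      obtain ⟨h₀, hh₀⟩ := hz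
      obtain ⟨i₀, hi₀⟩ := Function.ne_iff.1 hh₀
      rw [Pi.zero_apply] at hi₀
      refine finrank_le_one (⟨Λ h₀, LinearMap.mem_range_self Λ h₀⟩ : LinearMap.range Λ) ?_
      rintro ⟨_, h, rfl⟩
      refine ⟨Λ h i₀ / Λ h₀ i₀, Subtype.ext ?_⟩
      funext j
      show Λ h i₀ / Λ h₀ i₀ * Λ h₀ j = Λ h j
      rw [div_mul_eq_mul_div, div_eq_iff hi₀, hΛ, hΛ, hΛ, hΛ, ← map_mul, ← map_mul,
        hcomm i₀ j (e' h) (e' h₀), mul_comm]
  have hfin := LinearMap.finrank_range_add_finrank_ker Λ
  rw [hker] at hfin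
  omega

end Fermat.Agent.S26.PK
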