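/-
S26 / Rig / PK / Mul : the multiplication morphism `N ⊗ 𝓘 → N` for an ideal triple `𝓘`.   (package PK-4a)
-/
import Fermat.Agent.S26.Rig.PK.Defs

set_option autoImplicit false

open scoped TensorProduct

universe u

namespace Fermat.Agent.S26

namespace PK

variable {S : Type u} [CommRing S] (M : Type u) [AddCommGroup M] [Module S M]

/-- `M ⊗ I → M`, `m ⊗ a ↦ a m` -/
noncomputable def mulI (I : Ideal S) : M ⊗[S] I →ₗ[S] M :=
  (TensorProduct.rid S M).toLinearMap ∘ₗ LinearMap.lTensor M I.subtype

@[simp] theorem mulI_tmul (I : Ideal S) (m : M) (a : I) : mulI M I (m ⊗ₜ[S] a) = (a : S) • m := by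
  simp [mulI]

/-- `Module.Flat.lTensor_preserves_injective_linearMap` (or `Module.Flat.iff_lTensor_injective`) -/
theorem mulI_injective [Module.Flat S M] (I : Ideal S) : Function.Injective (mulI M I) := by
  unfold mulI
  rw [LinearMap.coe_comp, LinearEquiv.coe_coe]
  exact (TensorProduct.rid S M).injective.comp
    (Module.Flat.lTensor_preserves_injective_linearMap I.subtype Subtype.val_injective)

/-- `≤` : `TensorProduct.induction_on`, `Submodule.smul_mem_smul`.  `≥` : `Submodule.smul_le`. -/
theorem range_mulI (I : Ideal S) : LinearMap.range (mulI M I) = I • (⊤ : Submodule S M) := by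
  apply le_antisymm
  · rintro _ ⟨t, rfl⟩
    induction t using TensorProduct.induction_on with
    | zero => rw [map_zero]; exact zero_mem _
    | tmul m a =>
      rw [mulI_tmul]
      exact Submodule.smul_mem_smul a.2 Submodule.mem_top
    | add x y hx hy => rw [map_add]; exact add_mem hx hy
  · rw [Submodule.smul_le]
    intro a ha m _
    exact ⟨m ⊗ₜ[S] (⟨a, ha⟩ : I), mulI_tmul M I m ⟨a, ha⟩⟩

/-- compatibility of the multiplication maps with a semilinear restriction map -/
theorem Mul_comm {S S' : Type u} [CommRing S] [CommRing S'] (φ : S →+* S') {N N' : Type u}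
    [AddCommGroup N] [Module S N] [AddCommGroup N'] [Module S' N'] (r : N →ₛₗ[φ] N') (I : Ideal S)
    (I' : Ideal S') (h : I.map φ ≤ I') (n : N ⊗[S] I) :
    mulI N' I' (semiTensor φ r (idealRes φ I I' h) n) = r (mulI N I n) := by
  induction n using TensorProduct.induction_on with
  | zero => rw [map_zero, map_zero, map_zero, map_zero]
  | tmul x a => rw [semiTensor_tmul, mulI_tmul, mulI_tmul, idealRes_coe, r.map_smulₛₗ]
  | add x y hx hy => rw [map_add, map_add, hx, hy, map_add, map_add]

end PK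

variable {K : Type u} [Field K] {C : Curve K} {R : Type u} [CommRing R] [Algebra K R]

/-- the multiplication morphism `N ⊗ 𝓘 → N`.  `comm0`, `comm1`: `TensorProduct.induction_on`; on pure tensors
`semiTensor_tmul`, `PK.mulI_tmul`, `PK.idealRes_coe`, `N.r0.map_smulₛₗ`. -/
noncomputable def CIdl.mulHom (N : CMod C R) (𝓘 : CIdl C R) :
    CMod.LHom (N.tensor 𝓘.toCMod) N where
  f0 := PK.mulI N.N0 𝓘.I0
  f1 := PK.mulI N.N1 𝓘.I1
  f01 := PK.mulI N.N01 𝓘.I01
  comm0 := PK.Mul_comm _ N.r0 𝓘.I0 𝓘.I01 𝓘.map0.le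
  comm1 := PK.Mul_comm _ N.r1 𝓘.I1 𝓘.I01 𝓘.map1.le

/-- invertible modules are projective hence flat (`have := N.inv0`, instances) -/
theorem CIdl.mulHom_injective (N : CMod C R) (𝓘 : CIdl C R) :
    Function.Injective (𝓘.mulHom N).f0 ∧ Function.Injective (𝓘.mulHom N).f1 ∧
      Function.Injective (𝓘.mulHom N).f01 := by
  have := N.inv0
  have := N.inv1
  have := N.inv01
  exact ⟨PK.mulI_injective N.N0 𝓘.I0, PK.mulI_injective N.N1 𝓘.I1, PK.mulI_injective N.N01 𝓘.I01⟩

end Fermat.Agent.S26
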