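/-
S26 / Rig / PK / Sec : global sections of `N ⊗ 𝓘` = global sections of `N` lying in `𝓘 N`.   (package PK-4b)
-/
import Fermat.Agent.S26.Rig.PK.Mul

set_option autoImplicit false

open scoped TensorProduct

universe u

namespace Fermat.Agent.S26

/-- the statement on the level of `P1Mod`s: an injective morphism identifies `H^0` of the source with
the global sections of the target which lie chartwise in the range. -/
theorem Sec_p1_h0_eq {R : Type u} [CommRing R] {P' P : P1Mod R} (f0 : P'.P0 →ₗ[R] P.P0)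
    (f1 : P'.P1 →ₗ[R] P.P1) (f01 : P'.P01 →ₗ[R] P.P01)
    (c0 : ∀ p, f01 (P'.i0 p) = P.i0 (f0 p)) (c1 : ∀ p, f01 (P'.i1 p) = P.i1 (f1 p))
    (h0 : Function.Injective f0) (h1 : Function.Injective f1) (h01 : Function.Injective f01)
    (V : Submodule R P.H0)
    (hV : ∀ s : P.H0, s ∈ V ↔ s.1.1 ∈ Set.range f0 ∧ s.1.2 ∈ Set.range f1) :
    P'.h0 = Module.finrank R V := by
  have hd : ∀ a, f01 (P'.d a) = P.d (f0.prodMap f1 a) := by
    intro a
    rw [P1Mod.d_apply, P1Mod.d_apply, map_sub, c0, c1]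
    rfl
  have hmaps : ∀ a ∈ P'.H0, f0.prodMap f1 a ∈ P.H0 := by
    intro a ha
    have ha' : P'.d a = 0 := ha
    show P.d _ = 0
    rw [← hd, ha', map_zero]
  let F0 : P'.H0 →ₗ[R] P.H0 := (f0.prodMap f1).restrict hmaps
  let F : P'.H0 →ₗ[R] V := F0.codRestrict V (fun a => (hV _).2 ⟨⟨a.1.1, rfl⟩, ⟨a.1.2, rfl⟩⟩)
  have hinj : Function.Injective F := by
    intro a b hab
    have h2 : f0.prodMap f1 a.1 = f0.prodMap f1 b.1 :=
      congrArg (fun z : V => (z.1.1 : P.P0 × P.P1)) hab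
    apply Subtype.ext
    exact Prod.ext (h0 (congrArg Prod.fst h2)) (h1 (congrArg Prod.snd h2))
  have hsurj : Function.Surjective F := by
    rintro ⟨s, hs⟩
    obtain ⟨⟨t0, ht0⟩, ⟨t1, ht1⟩⟩ := (hV s).1 hs
    have hs0 : P.d s.1 = 0 := s.2
    have hmem : (t0, t1) ∈ P'.H0 := by
      show P'.d (t0, t1) = 0
      apply h01
      rw [hd, map_zero, ← hs0]
      congr 1
      exact Prod.ext ht0 ht1
    refine ⟨⟨(t0, t1), hmem⟩, ?_⟩
    apply Subtype.ext
    apply Subtype.ext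
    exact Prod.ext ht0 ht1
  exact (LinearEquiv.ofBijective F ⟨hinj, hsurj⟩).finrank_eq

variable {K : Type u} [Field K] {C : Curve K} {R : Type u} [CommRing R] [Algebra K R]

/-- the `R`-linear maps underlying a morphism of line bundles. -/
noncomputable def CMod.LHom.Sec_f0 {N' N : CMod C R} (c : CMod.LHom N' N) :
    N'.toP1Mod.P0 →ₗ[R] N.toP1Mod.P0 :=
  { c.f0 with
    map_smul' := fun r a => c.f0.map_smul (algebraMap R (C.S0 R) r) a }

noncomputable def CMod.LHom.Sec_f1 {N' N : CMod C R} (c : CMod.LHom N' N) :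
    N'.toP1Mod.P1 →ₗ[R] N.toP1Mod.P1 :=
  { c.f1 with
    map_smul' := fun r a => c.f1.map_smul (algebraMap R (C.S1 R) r) a }

noncomputable def CMod.LHom.Sec_f01 {N' N : CMod C R} (c : CMod.LHom N' N) :
    N'.toP1Mod.P01 →ₗ[R] N.toP1Mod.P01 :=
  { c.f01 with
    map_smul' := fun r a => c.f01.map_smul (algebraMap R (C.S01 R) r) a }

/-- PROOF.  Build an `R`-linear equivalence `N'.toP1Mod.H0 ≃ₗ[R] V` (then `LinearEquiv.finrank_eq`; `h0` unfolds to
`Module.finrank R N'.toP1Mod.H0`).  The `R`-module structures of `toP1Mod` are `Module.compHom _ (algebraMap R (C.S0 R))`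
(Curve/Defs.lean), so `c.f0 (r • n) = r • c.f0 n` is `c.f0.map_smul (algebraMap R _ r) n` (see how Curve/Iso.lean
`Iso.Iso_f0`, `Iso_p1_h0_eq` do it).  Map: `t = (t0, t1) ↦ (c.f0 t0, c.f1 t1)`; it lands in `H0` by `comm0`, `comm1`
(`r0_eq_r1_of_mem_H0`, `P1Mod.d_apply`), in `V` by `hV`; injective by `h0`, `h1`; surjective: `s0 = c.f0 t0`,
`s1 = c.f1 t1` and `c.f01 (r0 t0) = r0 s0 = r1 s1 = c.f01 (r1 t1)`, `h01`.  (`LinearEquiv.ofBijective`.) -/
theorem CMod.LHom.h0_eq_finrank {N' N : CMod C R} (c : CMod.LHom N' N) (h0 : Function.Injective c.f0)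
    (h1 : Function.Injective c.f1) (h01 : Function.Injective c.f01)
    (V : Submodule R N.toP1Mod.H0)
    (hV : ∀ s : N.toP1Mod.H0, s ∈ V ↔ (show N.N0 from s.1.1) ∈ LinearMap.range c.f0 ∧
      (show N.N1 from s.1.2) ∈ LinearMap.range c.f1) :
    N'.h0 = Module.finrank R V :=
  Sec_p1_h0_eq c.Sec_f0 c.Sec_f1 c.Sec_f01 c.comm0 c.comm1 h0 h1 h01 V hV

/-- `LHom.h0_eq_finrank` for `𝓘.mulHom N`, `CIdl.mulHom_injective`, `PK.range_mulI`, `CMod.mem_secI`. -/
theorem CMod.h0_tensor_toCMod (N : CMod C R) (𝓘 : CIdl C R) :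
    (N.tensor 𝓘.toCMod).h0 = Module.finrank R (N.secI 𝓘.I0 𝓘.I1) := by
  obtain ⟨h0, h1, h01⟩ := 𝓘.mulHom_injective N
  refine (𝓘.mulHom N).h0_eq_finrank h0 h1 h01 _ (fun s => ?_)
  rw [CMod.mem_secI, ← PK.range_mulI, ← PK.range_mulI]
  rfl

end Fermat.Agent.S26
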