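/-
S26 / Rig / PK / H0 : `h⁰(c - [Q])` in terms of sections vanishing at `Q`.   (package PK-7)
-/
import Fermat.Agent.S26.Rig.PK.Pt
import Fermat.Agent.S26.Rig.PK.Sec
import Fermat.Agent.S26.Rig.PK.Codim

set_option autoImplicit false

open scoped TensorProduct

universe u

namespace Fermat.Agent.S26.PK

variable {K : Type u} [Field K] [IsAlgClosed K] (C : Curve K)

/-- the sections of `N` vanishing at `Q` -/
noncomputable def secPt {C : Curve K} (N : CMod C K) (Q : Pt C) : Submodule K N.toP1Mod.H0 :=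
  N.secI (ptIdl C Q).I0 (ptIdl C Q).I1

/-- `cls_sub_ptCls`, `Pic.h0_cls`, `CMod.h0_tensor_toCMod` (`ptMod C Q = (ptIdl C Q).toCMod` by `rfl`) -/
theorem h0_sub_ptCls (N : CMod C K) (Q : Pt C) :
    (N.cls - ptCls C Q).h0 = Module.finrank K (secPt N Q) := by
  rw [cls_sub_ptCls, Pic.h0_cls]
  exact CMod.h0_tensor_toCMod N (ptIdl C Q)

/-- `CMod.mem_secI_left` (`ptIdl_inl_I0`, `ptIdl_inl_I1` are `rfl`) -/
theorem mem_secPt_inl (N : CMod C K) (q : C.B0 →ₐ[K] K) (s : N.toP1Mod.H0) :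
    s ∈ secPt N (Sum.inl q) ↔ (show N.N0 from s.1.1) ∈ gI q • (⊤ : Submodule (C.S0 K) N.N0) :=
  CMod.mem_secI_left N (gI q) s

theorem mem_secPt_inr (N : CMod C K) (q : C.B1 →ₐ[K] K) (s : N.toP1Mod.H0) :
    s ∈ secPt N (Sum.inr q) ↔ (show N.N1 from s.1.2) ∈ gI q • (⊤ : Submodule (C.S1 K) N.N1) :=
  CMod.mem_secI_right N (gI q) s

/-- `Pic.exists_rep`, `h0_sub_ptCls`, `Submodule.finrank_le` with `CMod.finite_H0` -/
theorem h0_sub_ptCls_le (c : Pic C K) (Q : Pt C) : (c - ptCls C Q).h0 ≤ c.h0 := by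
  obtain ⟨N, rfl⟩ := Pic.exists_rep c
  rw [h0_sub_ptCls, Pic.h0_cls]
  have := CMod.finite_H0 N
  exact Submodule.finrank_le _

/-- PROOF.  `Pic.exists_rep`, `h0_sub_ptCls`; `codim_le_one` (Codim.lean) with `S := C.S0 K`, `M := N.N0`, `η := ev q`
(`gI q = RingHom.ker (ev q)` by `rfl`), `H := N.toP1Mod.H0`, `e' s := s.1.1` (additive; `he` is `rfl` because the
`K`-structure of `toP1Mod` is `Module.compHom _ (algebraMap K (C.S0 K))`), `hV := mem_secPt_inl`; `have := N.inv0`;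
`CMod.finite_H0`.  Same on the chart `1` for `Sum.inr q`. -/
theorem h0_le_sub_ptCls (c : Pic C K) (Q : Pt C) : c.h0 ≤ (c - ptCls C Q).h0 + 1 := by
  obtain ⟨N, rfl⟩ := Pic.exists_rep c
  rw [h0_sub_ptCls, Pic.h0_cls]
  have := CMod.finite_H0 N
  rcases Q with q | q
  · have := N.inv0
    exact codim_le_one (S := C.S0 K) (M := N.N0) (H := N.toP1Mod.H0) (ev q)
      { toFun := fun s => (show N.N0 from s.1.1)
        map_zero' := rfl
        map_add' := fun _ _ => rfl } (fun _ _ => rfl) (secPt N (Sum.inl q)) (mem_secPt_inl C N q)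
  · have := N.inv1
    exact codim_le_one (S := C.S1 K) (M := N.N1) (H := N.toP1Mod.H0) (ev q)
      { toFun := fun s => (show N.N1 from s.1.2)
        map_zero' := rfl
        map_add' := fun _ _ => rfl } (fun _ _ => rfl) (secPt N (Sum.inr q)) (mem_secPt_inr C N q)

/-- `finrank_pos` for the nontrivial finite dimensional space `secPt N Q` -/
theorem h0_sub_pos_of_mem (N : CMod C K) (Q : Pt C) (s : N.toP1Mod.H0) (hs : s ≠ 0)
    (h : s ∈ secPt N Q) : 0 < (N.cls - ptCls C Q).h0 := by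
  rw [h0_sub_ptCls]
  have := CMod.finite_H0 N
  have : Nontrivial (secPt N Q) :=
    ⟨⟨⟨s, h⟩, 0, fun h0 => hs (congrArg Subtype.val h0)⟩⟩
  exact Module.finrank_pos (R := K) (M := secPt N Q)

/-- `secPt N Q ≠ ⊤` so `finrank (secPt N Q) < finrank H0` (`Submodule.finrank_lt`), and `h0_le_sub_ptCls` -/
theorem h0_sub_add_one_of_not_mem (N : CMod C K) (Q : Pt C) (s : N.toP1Mod.H0)
    (h : s ∉ secPt N Q) : (N.cls - ptCls C Q).h0 + 1 = N.cls.h0 := by
  have h1 := h0_le_sub_ptCls C N.cls Q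
  have hfin := CMod.finite_H0 N
  have h2 : Module.finrank K (secPt N Q) < Module.finrank K N.toP1Mod.H0 := by
    apply Submodule.finrank_lt
    intro htop
    exact h (htop ▸ Submodule.mem_top)
  have h3 : N.cls.h0 = Module.finrank K N.toP1Mod.H0 := rfl
  rw [h0_sub_ptCls] at h1 ⊢
  omega

end Fermat.Agent.S26.PK
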