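/-
S26 / Rig / PK / Drop : a general point imposes one condition.   (package PK-9b)
-/
import Fermat.Agent.S26.Rig.PK.H0

set_option autoImplicit false

open scoped TensorProduct

universe u

namespace Fermat.Agent.S26.PK

variable {K : Type u} [Field K] [IsAlgClosed K] (C : Curve K)

/-- PROOF.  `a' := C.J0 K a ≠ 0` (`C.J0_injective K`); `b := Algebra.TensorProduct.lid K C.B01 a' ≠ 0`;
`td_exists_algHom_ne_zero K C.B01 b` (Fermat.Agent.S27.B.TensorDomain; `C.finiteType_B01`) gives `q` with `q b ≠ 0`;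
`ev (q.comp C.j0) a = q b`: both sides are `K`-algebra homs in `a` (`Algebra.TensorProduct.ext`/`induction_on`). -/
theorem exists_pt01_ev_ne_zero (a : C.S0 K) (ha : a ≠ 0) :
    ∃ q : C.B01 →ₐ[K] K, ev (q.comp C.j0) a ≠ 0 := by
  have := C.finiteType_B01
  have ha' : C.J0 K a ≠ 0 := fun h => ha (C.J0_injective K (h.trans (map_zero _).symm))
  have hb : Algebra.TensorProduct.lid K C.B01 (C.J0 K a) ≠ 0 := fun h =>
    ha' ((Algebra.TensorProduct.lid K C.B01).injective (h.trans (map_zero _).symm))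
  obtain ⟨q, hq⟩ := Fermat.Agent.S27.td_exists_algHom_ne_zero K C.B01 _ hb
  refine ⟨q, ?_⟩
  have e : ev (q.comp C.j0) =
      (q.comp (Algebra.TensorProduct.lid K C.B01 : K ⊗[K] C.B01 →ₐ[K] C.B01)).comp (C.J0 K) := by
    apply Algebra.TensorProduct.ext'
    intro c b
    simp [Algebra.smul_def]
  rw [e]
  exact hq

/-- PROOF.  `c = N.cls`, `s ≠ 0` in `H0`; `s0 := s.1.1 ≠ 0` (else `r1 s1 = r0 s0 = 0`, `r1_injective`, so `s = 0`).  By
`SemiBC_exists_dualBasis` (`s0 = ∑ l i s0 • e i`) some `a := l i s0 ≠ 0`.  `exists_pt01_ev_ne_zero`: `q` with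
`a ∉ gI (q.comp C.j0)`; by `mem_smul_top_iff_dual`, `s0 ∉ gI (q.comp C.j0) • ⊤`; `mem_secPt_inl` (`pt01 C q = Sum.inl (q.comp C.j0)`
by `rfl`), `h0_sub_add_one_of_not_mem`. -/
theorem exists_pt01_drop (c : Pic C K) (h : 0 < c.h0) :
    ∃ q : C.B01 →ₐ[K] K, (c - ptCls C (pt01 C q)).h0 + 1 = c.h0 := by
  obtain ⟨N, rfl⟩ := Pic.exists_rep c
  rw [Pic.h0_cls] at h
  obtain ⟨s, hs⟩ := CMod.CV4_exists_section N h
  have hs0 : (show N.N0 from s.1.1) ≠ 0 := by
    intro h0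
    apply hs
    have h1 : (show N.N1 from s.1.2) = 0 := by
      apply N.r1_injective
      rw [← CMod.r0_eq_r1_of_mem_H0, h0, map_zero, map_zero]
    exact Subtype.ext (Prod.ext h0 h1)
  have := N.inv0
  obtain ⟨n, e, l, hel⟩ := SemiBC_exists_dualBasis (C.S0 K) N.N0
  have hex : ∃ i, l i (show N.N0 from s.1.1) ≠ 0 := by
    by_contra hne
    push Not at hne
    apply hs0
    rw [← hel (show N.N0 from s.1.1)]
    exact Finset.sum_eq_zero fun i _ => by rw [hne i, zero_smul]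
  obtain ⟨i, hi⟩ := hex
  obtain ⟨q, hq⟩ := exists_pt01_ev_ne_zero C _ hi
  refine ⟨q, h0_sub_add_one_of_not_mem C N (pt01 C q) s fun hmem => hq ?_⟩
  have h2 := (mem_secPt_inl C N (q.comp C.j0) s).1 hmem
  exact (mem_smul_top_iff_dual _ _).1 h2 (l i)

end Fermat.Agent.S26.PK
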