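/-
S26 / Rig / PK / Nonspecial : a nonspecial class of degree `g_C`.   (package PK-11)
-/
import Fermat.Agent.S26.Rig.PK.Drop
import Fermat.Agent.S26.Rig.PK.Deg

set_option autoImplicit false

open scoped TensorProduct

universe u

namespace Fermat.Agent.S26.PK

variable {K : Type u} [Field K] [IsAlgClosed K] (C : Curve K)

/-- PROOF.  RR: `Pic.h0_sub_h1 : h0 c - h1 c = deg c + chi (one C K)`.  `exists_pt01_drop` gives `q` with
`h0 (c - [q]) + 1 = h0 c`; `deg (c - [q]) = deg c - 1` (`map_sub`, `deg_ptCls`); RR for `c` and `c - [q]` gives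
`h1 (c - [q]) = h1 c = 0` (`omega` after `push_cast`). -/
theorem exists_drop_h1 (c : Pic C K) (h1 : c.h1 = 0) (h0 : 0 < c.h0) :
    ∃ c' : Pic C K, c'.h1 = 0 ∧ c'.h0 + 1 = c.h0 := by
  obtain ⟨q, hq⟩ := exists_pt01_drop C c h0
  refine ⟨c - ptCls C (pt01 C q), ?_, hq⟩
  have e1 := Pic.h0_sub_h1 c
  have e2 := Pic.h0_sub_h1 (c - ptCls C (pt01 C q))
  rw [map_sub, deg_ptCls] at e2
  omega

/-- PROOF.  `CMod.exists_h1_twist_eq_zero (CMod.one C K)` gives `m₀`; take `m ≥ m₀` with `m * r + chi (one) ≥ 1`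
(`C.r_pos`, `CMod.chi_twist`); `c := ((CMod.one C K).twist m).cls`: `h1 = finrank` of a subsingleton `= 0`
(`Pic.h1_cls`, `CMod.h1`, `P1Mod.h1`, `Module.finrank_zero_of_subsingleton`), `h0 = chi + h1 ≥ 1`. -/
theorem exists_h1_eq_zero : ∃ c : Pic C K, c.h1 = 0 ∧ 0 < c.h0 := by
  obtain ⟨m₀, hm₀⟩ := CMod.exists_h1_twist_eq_zero (CMod.one C K)
  set m : ℤ := max m₀ (|(CMod.one C K).chi| + 1) with hm
  have hsub := hm₀ m (le_max_left _ _)
  have h1 : ((CMod.one C K).twist m).h1 = 0 := by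
    unfold CMod.h1 P1Mod.h1
    exact Module.finrank_zero_of_subsingleton
  have hchi := CMod.chi_twist (CMod.one C K) m
  have h2 : ((CMod.one C K).twist m).chi =
      (((CMod.one C K).twist m).h0 : ℤ) - ((CMod.one C K).twist m).h1 := rfl
  have hr : (1 : ℤ) ≤ C.r := by exact_mod_cast C.r_pos
  have hm1 : |(CMod.one C K).chi| + 1 ≤ m := le_max_right _ _
  have h3 : 0 < (CMod.one C K).chi + m * C.r := by
    have h4 := neg_abs_le (CMod.one C K).chi
    have h5 := abs_nonneg (CMod.one C K).chi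
    nlinarith
  refine ⟨((CMod.one C K).twist m).cls, ?_, ?_⟩
  · rw [Pic.h1_cls, h1]
  · rw [Pic.h0_cls]
    rw [h1] at h2
    omega

/-- PROOF.  By induction on `n` (`exists_drop_h1`): `∀ c, c.h1 = 0 → c.h0 = n + 1 → ∃ c', c'.h1 = 0 ∧ c'.h0 = 1`.  Start with
`exists_h1_eq_zero`.  For `c'`: RR gives `1 - 0 = deg c' + chi (one C K)`, RR at `0` (`Pic.h0_zero`, `map_zero`) gives
`1 - h1 0 = chi (one C K)`; so `deg c' = h1 0`. -/
theorem exists_nonspecial : ∃ c : Pic C K, Pic.deg c = ((0 : Pic C K).h1 : ℤ) ∧ c.h1 = 0 := by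
  have key : ∀ (n : ℕ) (c : Pic C K), c.h1 = 0 → c.h0 = n + 1 →
      ∃ c' : Pic C K, c'.h1 = 0 ∧ c'.h0 = 1 := by
    intro n
    induction n with
    | zero => exact fun c h1 h0 => ⟨c, h1, h0⟩
    | succ n ih =>
      intro c h1 h0
      obtain ⟨c', h1', h0'⟩ := exists_drop_h1 C c h1 (by omega)
      exact ih c' h1' (by omega)
  obtain ⟨c, h1, h0⟩ := exists_h1_eq_zero C
  obtain ⟨c', h1', h0'⟩ := key (c.h0 - 1) c h1 (by omega)
  refine ⟨c', ?_, h1'⟩
  have e1 := Pic.h0_sub_h1 c'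
  have e2 := Pic.h0_sub_h1 (0 : Pic C K)
  rw [Pic.h0_zero, map_zero] at e2
  rw [h1', h0'] at e1
  omega

end Fermat.Agent.S26.PK
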