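/-
S26 / Rig / PK / Univ : the universal point of the overlap: `q ↦ - [q]` is an algebraic family.   (helper83)
-/
import Fermat.Agent.S26.Rig.PK.Pt

set_option autoImplicit false

open scoped TensorProduct

universe u

namespace Fermat.Agent.S26

/-- post-composition of a spanning semilinear map with a linear equivalence is spanning -/
theorem PK.span_comp_equiv {S S' : Type*} [CommRing S] [CommRing S'] {σ : S →+* S'}
    {M M' M'' : Type*} [AddCommGroup M] [Module S M] [AddCommGroup M'] [Module S' M']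
    [AddCommGroup M''] [Module S' M''] (g : M →ₛₗ[σ] M') (e : M' ≃ₗ[S'] M'')
    (hg : Submodule.span S' (Set.range g) = ⊤) :
    Submodule.span S' (Set.range ((e : M' →ₗ[S'] M'').comp g)) = ⊤ := by
  have h : Set.range ((e : M' →ₗ[S'] M'').comp g) = (e : M' →ₗ[S'] M'') '' Set.range g := by
    rw [LinearMap.coe_comp, Set.range_comp]
  rw [h, ← Submodule.map_span, hg, Submodule.map_top, LinearEquiv.range]

variable {K : Type u} [Field K]

namespace CMod

variable {C : Curve K} {R R' R₁ : Type u} [CommRing R] [Algebra K R] [CommRing R'] [Algebra K R']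
  [CommRing R₁] [Algebra K R₁]

/-- `Hom.IsPullback.unique` for two propositionally equal ring maps -/
theorem PK_unique {φ φ' : R →ₐ[K] R'} (hφ : φ = φ') {N : CMod C R} {N' N'' : CMod C R'}
    {f : Hom φ N N'} {f' : Hom φ' N N''} (h : f.IsPullback) (h' : f'.IsPullback) :
    Nonempty (Iso N' N'') := by
  subst hφ
  exact h.unique h'

/-- post-composition of a morphism over `φ` with an isomorphism -/
noncomputable def Hom.PK_isoComp {φ : R →ₐ[K] R'} {N : CMod C R} {N' N'' : CMod C R'}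
    (e : Iso N' N'') (f : Hom φ N N') : Hom φ N N'' where
  f0 := (e.e0 : N'.N0 →ₗ[C.S0 R'] N''.N0).comp f.f0
  f1 := (e.e1 : N'.N1 →ₗ[C.S1 R'] N''.N1).comp f.f1
  f01 := (e.e01 : N'.N01 →ₗ[C.S01 R'] N''.N01).comp f.f01
  comm0 := fun n => by
    show e.e01 (f.f01 (N.r0 n)) = N''.r0 (e.e0 (f.f0 n))
    rw [f.comm0, e.comm0]
  comm1 := fun n => by
    show e.e01 (f.f01 (N.r1 n)) = N''.r1 (e.e1 (f.f1 n))
    rw [f.comm1, e.comm1]

theorem Hom.IsPullback.PK_isoComp {φ : R →ₐ[K] R'} {N : CMod C R} {N' N'' : CMod C R'}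
    (e : Iso N' N'') {f : Hom φ N N'} (h : f.IsPullback) : (f.PK_isoComp e).IsPullback where
  span0 := PK.span_comp_equiv f.f0 e.e0 h.span0
  span1 := PK.span_comp_equiv f.f1 e.e1 h.span1
  span01 := PK.span_comp_equiv f.f01 e.e01 h.span01

/-- transitivity of the base change -/
theorem PK_iso_bc_bc (N₁ : CMod C R₁) (w : R₁ →ₐ[K] R) (φ : R →ₐ[K] R') (w' : R₁ →ₐ[K] R')
    (h : φ.comp w = w') : Nonempty (Iso ((N₁.bc w).bc φ) (N₁.bc w')) :=
  PK_unique h ((bcHom_isPullback φ (N₁.bc w)).comp (bcHom_isPullback w N₁))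
    (bcHom_isPullback w' N₁)

/-- the family over `Spec R₁` defined by a line bundle on `C × Spec R₁` -/
noncomputable def PK_ofCMod (N₁ : CMod C R₁) : CFam C (PtF.ofAlg K R₁) where
  N := fun {_} _ _ w => N₁.bc w
  bc := fun {_ _} _ _ _ _ φ {w w'} h =>
    (bcHom φ (N₁.bc w)).PK_isoComp (Classical.choice (PK_iso_bc_bc N₁ w φ w' h))
  isPullback := fun {_ _} _ _ _ _ φ {w _} _ =>
    (bcHom_isPullback φ (N₁.bc w)).PK_isoComp _

end CMod

namespace PK

section base

variable {B R R' : Type u} [CommRing B] [Algebra K B] [CommRing R] [Algebra K R] [CommRing R']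
  [Algebra K R']

theorem ev_map_base (φ : R →ₐ[K] R') (w : B →ₐ[K] R) (t : R ⊗[K] B) :
    ev (φ.comp w) (Algebra.TensorProduct.map φ (AlgHom.id K B) t) = φ (ev w t) := by
  have : (ev (φ.comp w)).comp (Algebra.TensorProduct.map φ (AlgHom.id K B)) = φ.comp (ev w) := by
    ext <;> simp
  exact DFunLike.congr_fun this t

/-- base change of a graph ideal -/
theorem gI_map_base (φ : R →ₐ[K] R') (w : B →ₐ[K] R) :
    (gI w).map (Algebra.TensorProduct.map φ (AlgHom.id K B)).toRingHom = gI (φ.comp w) := by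
  apply le_antisymm
  · rw [Ideal.map_le_iff_le_comap]
    intro t ht
    rw [Ideal.mem_comap, mem_gI]
    refine (ev_map_base φ w t).trans ?_
    rw [(mem_gI w t).1 ht, map_zero]
  · rw [gI_eq_span, Ideal.span_le]
    rintro _ ⟨b, rfl⟩
    have : gδ (φ.comp w) b = (Algebra.TensorProduct.map φ (AlgHom.id K B)).toRingHom (gδ w b) := by
      simp [gδ]
    rw [this]
    exact Ideal.mem_map_of_mem _ (gδ_mem w b)

end base

variable [IsAlgClosed K] (C : Curve K) {R R' : Type u} [CommRing R] [Algebra K R] [IsDomain R]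
  [Algebra.FiniteType K R] [CommRing R'] [Algebra K R'] [IsDomain R'] [Algebra.FiniteType K R']

/-- the ideal triple of `φ ∘ w` is the pull back of the ideal triple of `w` -/
noncomputable def idl01Hom (φ : R →ₐ[K] R') (w : C.B01 →ₐ[K] R) :
    CMod.Hom φ (idl01 C w).toCMod (idl01 C (φ.comp w)).toCMod where
  f0 := idealRes (C.m0 φ).toRingHom _ _ (gI_map_base φ (w.comp C.j0)).le
  f1 := idealRes (C.m1 φ).toRingHom _ _ (gI_map_base φ (w.comp C.j1)).le
  f01 := idealRes (C.m01 φ).toRingHom _ _ (gI_map_base φ w).le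
  comm0 := fun n => Subtype.ext (C.HomOps_m01_J0 φ n.1)
  comm1 := fun n => Subtype.ext (C.HomOps_m01_J1 φ n.1)

theorem idl01Hom_isPullback (φ : R →ₐ[K] R') (w : C.B01 →ₐ[K] R) :
    (idl01Hom C φ w).IsPullback where
  span0 := span_idealRes _ _ _ (gI_map_base φ (w.comp C.j0))
  span1 := span_idealRes _ _ _ (gI_map_base φ (w.comp C.j1))
  span01 := span_idealRes _ _ _ (gI_map_base φ w)

/-- the universal point: `q ↦ - [q]` is an algebraic family -/
theorem isFam_neg_ptCls : ∃ 𝓝 : CFam C (PtF.ofAlg K C.B01), ∀ q : C.B01 →ₐ[K] K,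
    - ptCls C (pt01 C q) = (𝓝.N q).cls := by
  have := C.finiteType_B01
  refine ⟨CMod.PK_ofCMod (idl01 C (AlgHom.id K C.B01)).toCMod, fun q => ?_⟩
  rw [ptCls, neg_neg, ptMod, ptIdl_pt01]
  exact CMod.cls_eq_iff.2 ((idl01Hom_isPullback C q (AlgHom.id K C.B01)).unique
    (CMod.bcHom_isPullback q _))

end PK

end Fermat.Agent.S26
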