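/-
S26 / Rig / PK / Zero : a nonzero section of a line bundle of positive degree has a zero.   (package PK-9a)
-/
import Fermat.Agent.S26.Rig.PK.H0

set_option autoImplicit false

open scoped TensorProduct

universe u

namespace Fermat.Agent.S26.PK

variable {K : Type u} [Field K] [IsAlgClosed K]

/-- `T7a.exists_algHom_of_isMaximal` gives `η : K ⊗ B →ₐ[K] K` with kernel `𝔪`; `q := η.comp includeRight`;
`ev q = η` (`Algebra.TensorProduct.ext`; on `c ⊗ 1`: `η.commutes`). -/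
theorem exists_gI_eq_of_isMaximal {B : Type u} [CommRing B] [Algebra K B] [Algebra.FiniteType K B]
    (𝔪 : Ideal (K ⊗[K] B)) (h𝔪 : 𝔪.IsMaximal) : ∃ q : B →ₐ[K] K, gI q = 𝔪 := by
  obtain ⟨η, hη⟩ := T7a.exists_algHom_of_isMaximal (K := K) 𝔪
  refine ⟨η.comp Algebra.TensorProduct.includeRight, ?_⟩
  have e : ev (η.comp (Algebra.TensorProduct.includeRight : B →ₐ[K] K ⊗[K] B)) = η := by
    apply Algebra.TensorProduct.ext
    · ext
    · ext b
      simp
  unfold gI
  rw [e]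
  exact hη

/-- PROOF.  The values `ℓ n`, `ℓ : Module.Dual S M`, form an ideal `𝔞` (range of the linear map `ℓ ↦ ℓ n`).  If `𝔞 = ⊤` there is
`ℓ` with `ℓ n = 1`; `ℓ : M → S` is surjective hence bijective (`bijective_of_surjective_of_invertible`,
Alg/InvSurj.lean, or `Module.Invertible.bijective_of_surjective`), and `ℓ (m - ℓ m • n) = 0` gives `m = ℓ m • n ∈ span {n}`:
contradiction.  So `𝔞 ≤ 𝔪` maximal (`Ideal.exists_le_maximal`) and `mem_smul_top_iff_dual` (Sat.lean). -/
theorem exists_maximal_mem_smul_top {S M : Type u} [CommRing S] [AddCommGroup M] [Module S M]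
    [Module.Invertible S M] (n : M) (hn : Submodule.span S {n} ≠ ⊤) :
    ∃ 𝔪 : Ideal S, 𝔪.IsMaximal ∧ n ∈ 𝔪 • (⊤ : Submodule S M) := by
  let E : Module.Dual S M →ₗ[S] S := Module.Dual.eval S M n
  let 𝔞 : Ideal S := LinearMap.range E
  have h𝔞 : 𝔞 ≠ ⊤ := by
    intro htop
    have h1 : (1 : S) ∈ 𝔞 := htop ▸ Submodule.mem_top
    obtain ⟨ℓ, hℓ⟩ := h1
    have hℓ1 : ℓ n = 1 := hℓ
    have hsurj : Function.Surjective ℓ := fun a => ⟨a • n, by rw [map_smul, hℓ1, smul_eq_mul, mul_one]⟩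
    have hbij : Function.Bijective ℓ := Module.Invertible.bijective_of_surjective hsurj
    apply hn
    rw [eq_top_iff]
    intro m _
    have : m = ℓ m • n := hbij.1 (by rw [map_smul, hℓ1, smul_eq_mul, mul_one])
    rw [this]
    exact Submodule.smul_mem _ _ (Submodule.mem_span_singleton_self n)
  obtain ⟨𝔪, h𝔪, hle⟩ := Ideal.exists_le_maximal 𝔞 h𝔞
  refine ⟨𝔪, h𝔪, (mem_smul_top_iff_dual 𝔪 n).2 fun ℓ => hle ⟨ℓ, rfl⟩⟩

omit [IsAlgClosed K] in
theorem Zero_dimOver_quot_top (κ S M : Type u) [Field κ] [CommRing S] [Algebra κ S] [AddCommGroup M]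
    [Module S M] : dimOver κ S (M ⧸ (⊤ : Submodule S M)) = 0 := by
  unfold dimOver
  let _ := Module.compHom (M ⧸ (⊤ : Submodule S M)) (algebraMap κ S)
  exact Module.finrank_zero_of_subsingleton

variable (C : Curve K)

/-- PROOF.  `c = N.cls`; `0 < h0` gives `s ≠ 0` in `N.toP1Mod.H0` (`Module.finrank_pos_iff`/`Module.nontrivial_of_finrank_pos`).
`CMod.LHom.chi_eq` for `N.ofSection s` (`ofSection_f01_ne_zero`): `chi N = chi (one) + d0 + d1 - d01`, `deg N > 0` so
`d0 > 0` or `d1 > 0`.  If `d0 = dimOver K (S0 K) (N0 ⧸ range (toSpanSingleton s0)) > 0` then `span {s0} ≠ ⊤` (otherwise the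
quotient is a subsingleton of finrank `0`; `LinearMap.range_toSpanSingleton`).  `exists_maximal_mem_smul_top` (`have := N.inv0`),
`exists_gI_eq_of_isMaximal` (`C.finiteType_B0`): `s0 ∈ gI q • ⊤`; `mem_secPt_inl`, `h0_sub_pos_of_mem` with `Q = Sum.inl q`.
Symmetric for `d1`. -/
theorem exists_zero (c : Pic C K) (hd : 0 < Pic.deg c) (h : 0 < c.h0) :
    ∃ Q : Pt C, 0 < (c - ptCls C Q).h0 := by
  obtain ⟨N, rfl⟩ := Pic.exists_rep c
  have hpos : 0 < Module.finrank K N.toP1Mod.H0 := h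
  have hnt : Nontrivial N.toP1Mod.H0 := Module.nontrivial_of_finrank_pos hpos
  obtain ⟨s, hs⟩ := exists_ne (0 : N.toP1Mod.H0)
  have hchi := (N.ofSection s).chi_eq (N.ofSection_f01_ne_zero s hs)
  have hdeg : 0 < N.chi - (CMod.one C K).chi := hd
  have hcase : 0 < dimOver K (C.S0 K) (N.N0 ⧸ LinearMap.range (N.ofSection s).f0) ∨
      0 < dimOver K (C.S1 K) (N.N1 ⧸ LinearMap.range (N.ofSection s).f1) := by
    omega
  rcases hcase with h0 | h1
  · have hspan : Submodule.span (C.S0 K) {(show N.N0 from s.1.1)} ≠ ⊤ := by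
      intro htop
      have hr : LinearMap.range (N.ofSection s).f0 = ⊤ := by
        rw [← htop]
        exact LinearMap.range_toSpanSingleton _
      rw [hr] at h0
      exact absurd h0 (by rw [Zero_dimOver_quot_top]; exact lt_irrefl 0)
    have := N.inv0
    have := C.finiteType_B0
    obtain ⟨𝔪, h𝔪, hmem⟩ := exists_maximal_mem_smul_top (show N.N0 from s.1.1) hspan
    obtain ⟨q, rfl⟩ := exists_gI_eq_of_isMaximal 𝔪 h𝔪
    exact ⟨Sum.inl q, h0_sub_pos_of_mem C N _ s hs ((mem_secPt_inl C N q s).2 hmem)⟩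
  · have hspan : Submodule.span (C.S1 K) {(show N.N1 from s.1.2)} ≠ ⊤ := by
      intro htop
      have hr : LinearMap.range (N.ofSection s).f1 = ⊤ := by
        rw [← htop]
        exact LinearMap.range_toSpanSingleton _
      rw [hr] at h1
      exact absurd h1 (by rw [Zero_dimOver_quot_top]; exact lt_irrefl 0)
    have := N.inv1
    have := C.finiteType_B1
    obtain ⟨𝔪, h𝔪, hmem⟩ := exists_maximal_mem_smul_top (show N.N1 from s.1.2) hspan
    obtain ⟨q, rfl⟩ := exists_gI_eq_of_isMaximal 𝔪 h𝔪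
    exact ⟨Sum.inr q, h0_sub_pos_of_mem C N _ s hs ((mem_secPt_inr C N q s).2 hmem)⟩

end Fermat.Agent.S26.PK
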