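/-
S26 / Rig / PK / Main : the deliverables of block RIG-PK (section RIG-PK of Rig/Interface.lean).
  `PK.Pt C`, `PK.pt01 C q`, `PK.ptCls C Q`                       (Pt.lean)
  `PK.deg_ptCls`                                                  (Deg.lean)
  `PK.h0_sub_ptCls_le`, `PK.h0_le_sub_ptCls`                      (H0.lean)
  `PK.exists_zero`                                                (Zero.lean)
  `PK.exists_pt01_drop`                                           (Drop.lean)
  `PK.exists_finite_boundary`, `PK.finite_zeroLocus`              (Fin.lean)
  `PK.exists_nonspecial`                                          (Nonspecial.lean)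
  `PK.isFam_neg_ptCls`                                            (Univ.lean)
-/
import Fermat.Agent.S26.Rig.PK.Zero
import Fermat.Agent.S26.Rig.PK.Fin
import Fermat.Agent.S26.Rig.PK.Nonspecial
import Fermat.Agent.S26.Rig.PK.Univ
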