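/-
S26 / Rig / PK / ZeroLocus (package PK-7b): a nonzero ideal of `B01` has finitely many `K`-points;
`B01` has infinitely many `K`-points.
-/
import Fermat.Agent.S26.Rig.Interface
import Fermat.Agent.S26.T6.CurveOfField
import Fermat.Agent.S27.B.TensorDomain

set_option autoImplicit false

open scoped TensorProduct

universe u

namespace Fermat.Agent.S26

variable {K : Type u} [Field K] [IsAlgClosed K]

omit [IsAlgClosed K] in
/-- a `K`-point is determined by its kernel -/
theorem zeroLocus_ker_injective {B : Type u} [CommRing B] [Algebra K B] {q q' : B →ₐ[K] K}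
    (h : RingHom.ker q = RingHom.ker q') : q = q' := by
  ext b
  have h1 : b - algebraMap K B (q b) ∈ RingHom.ker q := by
    rw [RingHom.mem_ker, map_sub, AlgHom.commutes]
    exact sub_self _
  rw [h, RingHom.mem_ker, map_sub, AlgHom.commutes, sub_eq_zero] at h1
  exact h1.symm

theorem Curve.finite_zeroLocus' (C : Curve K) (J : Ideal C.B01) (hJ : J ≠ ⊥) :
    {q : C.B01 →ₐ[K] K | J ≤ RingHom.ker q}.Finite := by
  have := C.isDedekindDomain_B01
  have hfin : Finite {v : IsDedekindDomain.HeightOneSpectrum C.B01 | v.asIdeal ∣ J} :=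
    Ideal.finite_factors (R := C.B01) (I := J) hJ
  let F : {q : C.B01 →ₐ[K] K | J ≤ RingHom.ker q} →
      {v : IsDedekindDomain.HeightOneSpectrum C.B01 | v.asIdeal ∣ J} := fun q =>
    ⟨⟨RingHom.ker q.1, RingHom.ker_isPrime _, fun h0 => hJ (le_bot_iff.1 (h0 ▸ q.2))⟩,
      Ideal.dvd_iff_le.2 q.2⟩
  have hF : Function.Injective F := by
    intro q q' h
    have h1 : RingHom.ker q.1 = RingHom.ker q'.1 :=
      congrArg (fun v : {v : IsDedekindDomain.HeightOneSpectrum C.B01 | v.asIdeal ∣ J} =>
        v.1.asIdeal) h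
    exact Subtype.ext (zeroLocus_ker_injective h1)
  exact Set.finite_coe_iff.1 (Finite.of_injective F hF)

theorem Curve.infinite_pt01 (C : Curve K) : (Set.univ : Set (C.B01 →ₐ[K] K)).Infinite := by
  classical
  intro hfin
  have : Algebra.FiniteType K C.B01 := C.finiteType_B01
  have : Finite (C.B01 →ₐ[K] K) := Set.finite_univ_iff.1 hfin
  have : Fintype (C.B01 →ₐ[K] K) := Fintype.ofFinite _
  set b : C.B01 := ∏ q : C.B01 →ₐ[K] K, (C.j0 C.x - algebraMap K C.B01 (q (C.j0 C.x))) with hb
  have hb0 : b ≠ 0 := by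
    rw [hb, Finset.prod_ne_zero_iff]
    intro q _ h0
    set c : K := q (C.j0 C.x)
    have h1 : C.j0 (Polynomial.aeval C.x (Polynomial.X - Polynomial.C c)) = 0 := by
      rw [map_sub, Polynomial.aeval_X, Polynomial.aeval_C, map_sub, AlgHom.commutes]
      exact h0
    have h2 : Polynomial.aeval C.x (Polynomial.X - Polynomial.C c) = 0 :=
      C.j0_inj (h1.trans (map_zero _).symm)
    have h3 : (Polynomial.X - Polynomial.C c : Polynomial K) = 0 :=
      curveOfField_x_injective C (h2.trans (map_zero _).symm)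
    exact Polynomial.X_sub_C_ne_zero c h3
  obtain ⟨φ, hφ⟩ := Fermat.Agent.S27.td_exists_algHom_ne_zero K C.B01 b hb0
  apply hφ
  rw [hb, map_prod]
  refine Finset.prod_eq_zero (Finset.mem_univ φ) ?_
  rw [map_sub, AlgHom.commutes]
  exact sub_self _

end Fermat.Agent.S26
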